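import Mathlib

set_option autoImplicit false

namespace Fermat.Agent.Lib.Kummer

open Module

theorem exists_pow_eq_of_dlog_eq_zero_aux {p : ℕ} [Fact p.Prime] {E W : Type*} [CommGroup E]
    [AddCommGroup W] [Module (ZMod p) W] (D : E →* Multiplicative W)
    {ι ι' : Type*} [Fintype ι] [Fintype ι'] (x : ι → E)
    (hx : ∀ u : E, ∃ e : ι → ℤ, u = ∏ i, x i ^ e i)
    (g : ι' → E)
    (hg : ∀ c : ι' → ℤ, ∑ j, c j • (D (g j)).toAdd = 0 → ∀ j, (p : ℤ) ∣ c j)
    (hcard : Fintype.card ι ≤ Fintype.card ι')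
    (u : E) (hu : D u = 1) : ∃ v : E, u = v ^ p := by
  classical
  -- the linear map attached to the generators
  let T : (ι → ZMod p) →ₗ[ZMod p] W := Fintype.linearCombination (ZMod p) (fun i => (D (x i)).toAdd)
  have hT : ∀ e : ι → ℤ, T (fun i => (e i : ZMod p)) = (D (∏ i, x i ^ e i)).toAdd := by
    intro e
    simp only [T, Fintype.linearCombination_apply, map_prod, map_zpow, toAdd_prod, toAdd_zpow,
      Int.cast_smul_eq_zsmul]
  have hrange : ∀ u : E, (D u).toAdd ∈ LinearMap.range T := by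
    intro u
    obtain ⟨e, rfl⟩ := hx u
    exact ⟨_, hT e⟩
  -- independent family inside the range
  have hli : LinearIndependent (ZMod p) (fun j => (D (g j)).toAdd) := by
    rw [Fintype.linearIndependent_iff]
    intro c hc j
    have := hg (fun j => ((c j).val : ℤ)) (by
      rw [← hc]
      refine Finset.sum_congr rfl fun j _ => ?_
      rw [← Int.cast_smul_eq_zsmul (ZMod p)]
      simp) j
    have h2 : (((c j).val : ℤ) : ZMod p) = 0 := (ZMod.intCast_zmod_eq_zero_iff_dvd _ _).2 this
    simpa using h2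
  have hli' : LinearIndependent (ZMod p)
      (fun j => (⟨(D (g j)).toAdd, hrange (g j)⟩ : LinearMap.range T)) := by
    apply LinearIndependent.of_comp (LinearMap.range T).subtype
    exact hli
  have h1 : Fintype.card ι' ≤ finrank (ZMod p) (LinearMap.range T) :=
    hli'.fintype_card_le_finrank
  have h2 := LinearMap.finrank_range_add_finrank_ker T
  rw [Module.finrank_fintype_fun_eq_card] at h2
  have h3 : finrank (ZMod p) (LinearMap.ker T) = 0 := by omega
  have h4 : LinearMap.ker T = ⊥ := Submodule.finrank_eq_zero.1 h3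
  obtain ⟨e, rfl⟩ := hx u
  have h5 : (fun i => (e i : ZMod p)) ∈ LinearMap.ker T := by
    rw [LinearMap.mem_ker, hT, hu]; rfl
  rw [h4, Submodule.mem_bot] at h5
  have h6 : ∀ i, (p : ℤ) ∣ e i := fun i =>
    (ZMod.intCast_zmod_eq_zero_iff_dvd _ _).1 (congrFun h5 i)
  choose f hf using h6
  refine ⟨∏ i, x i ^ f i, ?_⟩
  rw [← Finset.prod_pow]
  refine Finset.prod_congr rfl fun i _ => ?_
  rw [hf i, mul_comm, zpow_mul, zpow_natCast]

/-- Abstract counting argument behind Kummer's lemma.  `E` is a commutative group generated by the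
finite family `x`, `D` a homomorphism to a group `W` killed by `p`.  If the values of `D` on some
family `g` with at least as many members are independent mod `p`, then `ker D` consists of `p`-th
powers. -/
theorem exists_pow_eq_of_dlog_eq_zero {p : ℕ} [Fact p.Prime] {E W : Type*} [CommGroup E]
    [AddCommGroup W] (hW : ∀ w : W, p • w = 0) (D : E →* Multiplicative W)
    {ι ι' : Type*} [Fintype ι] [Fintype ι'] (x : ι → E)
    (hx : ∀ u : E, ∃ e : ι → ℤ, u = ∏ i, x i ^ e i)
    (g : ι' → E)
    (hg : ∀ c : ι' → ℤ, ∑ j, c j • (D (g j)).toAdd = 0 → ∀ j, (p : ℤ) ∣ c j)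
    (hcard : Fintype.card ι ≤ Fintype.card ι')
    (u : E) (hu : D u = 1) : ∃ v : E, u = v ^ p :=
  @exists_pow_eq_of_dlog_eq_zero_aux p _ E W _ _ (AddCommGroup.zmodModule hW) D ι ι' _ _ x hx g hg
    hcard u hu

end Fermat.Agent.Lib.Kummer
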