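import Mathlib

set_option autoImplicit false

open NumberField

namespace Fermat.Agent.Lib.Kummer

/-- Kummer's lemma for the prime `p` in the `p`-th cyclotomic field `K`: a unit congruent to a
rational integer modulo `p` is a `p`-th power. -/
def KummerLemma (p : ℕ) (K : Type) [Field K] [NumberField K] : Prop :=
  ∀ u : (𝓞 K)ˣ, (∃ n : ℤ, (p : 𝓞 K) ∣ (u : 𝓞 K) - (n : 𝓞 K)) → ∃ v : (𝓞 K)ˣ, u = v ^ p

/-- First case of FLT for exponent `p`. -/
def CaseI (p : ℕ) : Prop :=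
  ∀ a b c : ℤ, IsCoprime a b → ¬ (p : ℤ) ∣ a * b * c → a ^ p + b ^ p ≠ c ^ p

/-- Second case of FLT for exponent `p` (normalised so that `p ∣ c`). -/
def CaseII (p : ℕ) : Prop :=
  ∀ a b c : ℤ, IsCoprime a b → c ≠ 0 → (p : ℤ) ∣ c → a ^ p + b ^ p ≠ c ^ p

end Fermat.Agent.Lib.Kummer
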