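import Mathlib
import Fermat.Prelude.Def_FLTPrelim_FreyPackage
import Fermat.Agent.Lib.Kummer.Defs

set_option autoImplicit false

/-!
# From `CaseI p` and `CaseII p` to the non-existence of a Frey package with exponent `p`
-/

namespace Fermat.Agent.Lib.Kummer

lemma isCoprime_of_gcd_eq_one {a b : ℤ} (h : gcd a b = 1) : IsCoprime a b := by
  rw [Int.isCoprime_iff_gcd_eq_one]
  have h' : ((Int.gcd a b : ℕ) : ℤ) = 1 := by
    rw [Int.coe_gcd]
    exact h
  exact_mod_cast h'

/-- A Frey package whose exponent satisfies both cases of FLT does not exist. -/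
theorem false_of_freyPackage (P : FreyPackage) (hI : CaseI P.p) (hII : CaseII P.p) : False := by
  have hodd : Odd P.p := P.hp_odd
  have hab : IsCoprime P.a P.b := isCoprime_of_gcd_eq_one P.hgcdab
  have hac : IsCoprime P.a P.c := isCoprime_of_gcd_eq_one P.hgcdac
  have hbc : IsCoprime P.b P.c := isCoprime_of_gcd_eq_one P.hgcdbc
  have hpp : Prime (P.p : ℤ) := Nat.prime_iff_prime_int.1 P.pp
  by_cases hdvd : (P.p : ℤ) ∣ P.a * P.b * P.c
  · rcases hpp.dvd_or_dvd hdvd with h | h
    · rcases hpp.dvd_or_dvd h with h | h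
      · refine hII P.c (-P.b) P.a hbc.symm.neg_right P.ha0 h ?_
        rw [hodd.neg_pow]
        linear_combination -P.hFLT
      · refine hII P.c (-P.a) P.b hac.symm.neg_right P.hb0 h ?_
        rw [hodd.neg_pow]
        linear_combination -P.hFLT
    · exact hII P.a P.b P.c hab P.hc0 h P.hFLT
  · exact hI P.a P.b P.c hab hdvd P.hFLT

end Fermat.Agent.Lib.Kummer
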