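import Fermat.Agent.Lib.Kummer.KummerLemma

set_option autoImplicit false
set_option linter.unusedSectionVars false
set_option linter.unusedSimpArgs false

open NumberField Polynomial

namespace Fermat.Agent.Lib.Kummer

variable {p : ℕ} [hp : Fact p.Prime] {K : Type} [Field K] [NumberField K]
  [IsCyclotomicExtension {p} ℚ K] {ζ : K} (hζ : IsPrimitiveRoot ζ p)

lemma der_geom_sum (k : ℕ) : der hζ (∑ i ∈ Finset.range k, hζ.toInteger ^ i) =
    Ideal.Quotient.mk (dIdeal hζ) (∑ i ∈ Finset.range k, (i : 𝓞 K) * hζ.toInteger ^ (i - 1)) := by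
  rw [map_sum, map_sum]
  refine Finset.sum_congr rfl fun i _ => ?_
  rw [Derivation.leibniz_pow, der_zeta, nsmul_eq_mul, Algebra.smul_def,
    Ideal.Quotient.algebraMap_eq, mul_one, map_mul, map_natCast]

lemma toAdd_dlog_of_cert (u : (𝓞 K)ˣ) (d m w y : 𝓞 K)
    (hd : der hζ (u : 𝓞 K) = Ideal.Quotient.mk (dIdeal hζ) d)
    (h : d = (u : 𝓞 K) * m + (hζ.toInteger - 1) ^ (p - 2) * w + (p : 𝓞 K) * y) :
    (dlog hζ u).toAdd = Ideal.Quotient.mk (dIdeal hζ) m := by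
  apply toAdd_dlog_eq
  rw [hd, Ideal.Quotient.eq, h]
  have : (u : 𝓞 K) * m + (hζ.toInteger - 1) ^ (p - 2) * w + (p : 𝓞 K) * y - (u : 𝓞 K) * m =
    (hζ.toInteger - 1) ^ (p - 2) * w + (p : 𝓞 K) * y := by ring
  rw [this]
  refine Ideal.add_mem _ (Ideal.mul_mem_right _ _ ?_)
    (Ideal.mul_mem_right _ _ (natCast_mem_dIdeal hζ))
  exact Ideal.mem_span_singleton_self _

/-- the unit `ζ`. -/
noncomputable def zetaUnit : (𝓞 K)ˣ := (hζ.toInteger_isPrimitiveRoot.isUnit hp.out.ne_zero).unit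

lemma coe_zetaUnit : ((zetaUnit hζ : (𝓞 K)ˣ) : 𝓞 K) = hζ.toInteger := rfl

/-- the cyclotomic unit `1 + ζ + ... + ζ^(k-1)`. -/
noncomputable def cycUnit (k : ℕ) (hk : k.Coprime p) : (𝓞 K)ˣ :=
  (hζ.toInteger_isPrimitiveRoot.geom_sum_isUnit hp.out.two_le hk).unit

lemma coe_cycUnit (k : ℕ) (hk : k.Coprime p) :
    ((cycUnit hζ k hk : (𝓞 K)ˣ) : 𝓞 K) = ∑ i ∈ Finset.range k, hζ.toInteger ^ i := rfl

/-- Kummer's lemma from an explicit matrix of `λ`-adic digits of logarithmic derivatives. -/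
theorem kummerLemma_of_matrix (hp2 : p ≠ 2) {n N : ℕ} (hn : (p - 1) / 2 = n) (hN : p - 2 = N)
    (g : Fin n → (𝓞 K)ˣ) (m : Fin n → Fin N → ℤ)
    (hm : ∀ j, (dlog hζ (g j)).toAdd =
      Ideal.Quotient.mk (dIdeal hζ) (∑ i : Fin N, (m j i : 𝓞 K) * (hζ.toInteger - 1) ^ (i : ℕ)))
    (hind : ∀ c : Fin n → ℤ, (∀ i, (p : ℤ) ∣ ∑ j, c j * m j i) → ∀ j, (p : ℤ) ∣ c j) :
    KummerLemma p K := by
  subst hn hN
  refine kummerLemma_of_cert hζ hp2 g fun c hc => hind c fun i => ?_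
  have key : Ideal.Quotient.mk (dIdeal hζ) (∑ i ∈ Finset.range (p - 2),
      (((fun i : ℕ => if h : i < p - 2 then ∑ j, c j * m j ⟨i, h⟩ else 0) i : ℤ) : 𝓞 K) *
        (hζ.toInteger - 1) ^ i) = 0 := by
    rw [← hc, Finset.sum_range, map_sum]
    simp only [hm, zsmul_eq_mul, Fin.is_lt, dite_true, Fin.eta, Int.cast_sum, Int.cast_mul,
      Finset.sum_mul, map_sum, map_mul, map_intCast, map_pow, Finset.mul_sum]
    rw [Finset.sum_comm]
    refine Finset.sum_congr rfl fun j _ => Finset.sum_congr rfl fun i _ => ?_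
    ring
  rw [Ideal.Quotient.eq_zero_iff_mem, dIdeal, Ideal.mem_span_singleton] at key
  have := dvd_coeff_of_pow_dvd_sum hζ (by omega) _ key i i.2
  simpa using this

end Fermat.Agent.Lib.Kummer
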