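import Mathlib

set_option autoImplicit false
set_option linter.unusedSectionVars false
set_option linter.unusedSimpArgs false

open NumberField Polynomial

namespace Fermat.Agent.Lib.Kummer

variable {p : ℕ} [hp : Fact p.Prime] {K : Type} [Field K] [NumberField K]
  [IsCyclotomicExtension {p} ℚ K] {ζ : K} (hζ : IsPrimitiveRoot ζ p)

/-- The ideal `(ζ - 1)^(p-2)`. -/
noncomputable def dIdeal : Ideal (𝓞 K) := Ideal.span {(hζ.toInteger - 1) ^ (p - 2)}

/-- The quotient `𝓞 K / (ζ - 1)^(p-2)`. -/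
abbrev DQuot : Type := 𝓞 K ⧸ dIdeal hζ

lemma minpoly_toInteger : minpoly ℤ hζ.toInteger = cyclotomic p ℤ := by
  rw [cyclotomic_eq_minpoly hζ hp.out.pos]
  exact (RingOfIntegers.minpoly_coe hζ.toInteger).symm

lemma aeval_cyclotomic : aeval hζ.toInteger (cyclotomic p ℤ) = 0 := by
  rw [← minpoly_toInteger hζ]; exact minpoly.aeval _ _

lemma natCast_mem_dIdeal : (p : 𝓞 K) ∈ dIdeal hζ := by
  obtain ⟨u, hu⟩ := IsCyclotomicExtension.Rat.associated_zeta_sub_one_pow_prime p hζ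
  rw [dIdeal, Ideal.mem_span_singleton, ← hu]
  exact Dvd.dvd.mul_right (pow_dvd_pow _ (by omega)) _

lemma aeval_derivative_cyclotomic_mem :
    aeval hζ.toInteger (derivative (cyclotomic p ℤ)) ∈ dIdeal hζ := by
  have h2 : 2 ≤ p := hp.out.two_le
  have h := congrArg (fun f => aeval hζ.toInteger (derivative f))
    (cyclotomic_prime_mul_X_sub_one ℤ p)
  simp only [derivative_mul, derivative_sub, derivative_X, derivative_one, sub_zero, mul_one,
    derivative_X_pow, map_add, map_mul, map_sub, aeval_X, map_one, aeval_cyclotomic, add_zero,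
    map_pow, map_natCast] at h
  obtain ⟨u, hu⟩ := IsCyclotomicExtension.Rat.associated_zeta_sub_one_pow_prime p hζ
  have hne : hζ.toInteger - 1 ≠ 0 := hζ.zeta_sub_one_prime'.ne_zero
  rw [dIdeal, Ideal.mem_span_singleton]
  refine ⟨u * hζ.toInteger ^ (p - 1), ?_⟩
  apply mul_right_cancel₀ hne
  rw [h]
  have : (C (p : ℤ) : ℤ[X]) = (p : ℤ[X]) := by simp
  simp only [← hu]
  have h3 : p - 1 = (p - 2) + 1 := by omega
  conv_lhs => rw [h3, pow_succ (hζ.toInteger - 1)]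
  rw [← h3]
  ring

/-- The embedding `𝓞 K → (𝓞 K / (ζ-1)^(p-2))[ε]` without `ε`-part. -/
noncomputable def inlHom' : 𝓞 K →ₐ[ℤ] TrivSqZeroExt (DQuot hζ) (DQuot hζ) :=
  ((TrivSqZeroExt.inlHom (DQuot hζ) (DQuot hζ)).comp (Ideal.Quotient.mk (dIdeal hζ))).toIntAlgHom

lemma inlHom'_apply (a : 𝓞 K) :
    inlHom' hζ a = TrivSqZeroExt.inl (Ideal.Quotient.mk (dIdeal hζ) a) := rfl

lemma aeval_shift :
    aeval (inlHom' hζ hζ.toInteger + TrivSqZeroExt.inr (1 : DQuot hζ))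
      (minpoly ℤ hζ.integralPowerBasis.gen) = 0 := by
  rw [hζ.integralPowerBasis_gen, minpoly_toInteger,
    aeval_add_of_sq_eq_zero _ _ _ (by rw [sq, TrivSqZeroExt.inr_mul_inr]),
    aeval_algHom_apply, aeval_algHom_apply, aeval_cyclotomic, map_zero, zero_add, inlHom'_apply,
    Ideal.Quotient.eq_zero_iff_mem.2 (aeval_derivative_cyclotomic_mem hζ)]
  simp

/-- The ring homomorphism `𝓞 K → (𝓞 K / (ζ-1)^(p-2))[ε]`, `ζ ↦ ζ + ε`. -/
noncomputable def psi : 𝓞 K →ₐ[ℤ] TrivSqZeroExt (DQuot hζ) (DQuot hζ) :=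
  hζ.integralPowerBasis.lift _ (aeval_shift hζ)

lemma psi_zeta : psi hζ hζ.toInteger =
    inlHom' hζ hζ.toInteger + TrivSqZeroExt.inr (1 : DQuot hζ) := by
  have := hζ.integralPowerBasis.lift_gen _ (aeval_shift hζ)
  rwa [hζ.integralPowerBasis_gen] at this

lemma fst_psi (a : 𝓞 K) : (psi hζ a).fst = Ideal.Quotient.mk (dIdeal hζ) a := by
  have : ((TrivSqZeroExt.fstHom (DQuot hζ) (DQuot hζ) (DQuot hζ)).toRingHom.toIntAlgHom).comp (psi hζ) =
      (Ideal.Quotient.mk (dIdeal hζ)).toIntAlgHom := by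
    apply hζ.integralPowerBasis.algHom_ext
    rw [hζ.integralPowerBasis_gen]
    change (psi hζ hζ.toInteger).fst = Ideal.Quotient.mk (dIdeal hζ) hζ.toInteger
    simp [psi_zeta, inlHom'_apply]
  exact DFunLike.congr_fun this a

/-- The derivation `f(ζ) ↦ f'(ζ) mod (ζ-1)^(p-2)`. -/
noncomputable def der : Derivation ℤ (𝓞 K) (DQuot hζ) :=
  Derivation.mk'
    { toFun := fun a => (psi hζ a).snd
      map_add' := fun a b => by simp
      map_smul' := fun n a => by simp }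
    (fun a b => by
      simp only [LinearMap.coe_mk, AddHom.coe_mk, map_mul, TrivSqZeroExt.snd_mul, fst_psi]
      simp only [MulOpposite.smul_eq_mul_unop, MulOpposite.unop_op, smul_eq_mul]
      simp only [Algebra.smul_def, Ideal.Quotient.algebraMap_eq]
      ring)

lemma der_apply (a : 𝓞 K) : der hζ a = (psi hζ a).snd := rfl

lemma der_zeta : der hζ hζ.toInteger = 1 := by
  simp [der_apply, psi_zeta, inlHom'_apply]

lemma natCast_smul_dQuot (w : DQuot hζ) : p • w = 0 := by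
  obtain ⟨a, rfl⟩ := Ideal.Quotient.mk_surjective w
  rw [← map_nsmul, Ideal.Quotient.eq_zero_iff_mem, nsmul_eq_mul]
  exact Ideal.mul_mem_right _ _ (natCast_mem_dIdeal hζ)

/-- The logarithmic derivative on units. -/
noncomputable def dlog : (𝓞 K)ˣ →* Multiplicative (DQuot hζ) where
  toFun u := Multiplicative.ofAdd (((u⁻¹ : (𝓞 K)ˣ) : 𝓞 K) • der hζ (u : 𝓞 K))
  map_one' := by simp
  map_mul' u v := by
    rw [← ofAdd_add]
    congr 1
    simp only [Units.val_mul, Derivation.leibniz, mul_inv, smul_add, smul_smul]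
    have h1 : ((u⁻¹ : (𝓞 K)ˣ) : 𝓞 K) * ((v⁻¹ : (𝓞 K)ˣ) : 𝓞 K) * (u : 𝓞 K) = ((v⁻¹ : (𝓞 K)ˣ) : 𝓞 K) := by
      rw [mul_comm, ← mul_assoc, Units.mul_inv, one_mul]
    have h2 : ((u⁻¹ : (𝓞 K)ˣ) : 𝓞 K) * ((v⁻¹ : (𝓞 K)ˣ) : 𝓞 K) * (v : 𝓞 K) = ((u⁻¹ : (𝓞 K)ˣ) : 𝓞 K) := by
      rw [mul_assoc, Units.inv_mul, mul_one]
    rw [h1, h2, add_comm]

lemma toAdd_dlog (u : (𝓞 K)ˣ) :
    (dlog hζ u).toAdd = ((u⁻¹ : (𝓞 K)ˣ) : 𝓞 K) • der hζ (u : 𝓞 K) := rfl

/-- If `der u = u * m` modulo the ideal, then `dlog u = m`. -/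
lemma toAdd_dlog_eq (u : (𝓞 K)ˣ) (m : 𝓞 K)
    (h : der hζ (u : 𝓞 K) = Ideal.Quotient.mk (dIdeal hζ) ((u : 𝓞 K) * m)) :
    (dlog hζ u).toAdd = Ideal.Quotient.mk (dIdeal hζ) m := by
  rw [toAdd_dlog, h, Algebra.smul_def, Ideal.Quotient.algebraMap_eq, ← map_mul, ← mul_assoc,
    Units.inv_mul, one_mul]

lemma dlog_eq_one_of_dvd (u : (𝓞 K)ˣ) (n : ℤ) (h : (p : 𝓞 K) ∣ (u : 𝓞 K) - (n : 𝓞 K)) :
    dlog hζ u = 1 := by
  obtain ⟨w, hw⟩ := h
  have hu : (u : 𝓞 K) = (n : 𝓞 K) + (p : 𝓞 K) * w := by rw [← hw]; ring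
  have h0 : der hζ (u : 𝓞 K) = 0 := by
    rw [hu, map_add, Derivation.leibniz, Derivation.map_natCast, Derivation.map_intCast, smul_zero,
      add_zero, zero_add, Algebra.smul_def, Ideal.Quotient.algebraMap_eq,
      Ideal.Quotient.eq_zero_iff_mem.2 (natCast_mem_dIdeal hζ), zero_mul]
  rw [← toAdd_eq_zero, toAdd_dlog, h0, smul_zero]

end Fermat.Agent.Lib.Kummer
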