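import Mathlib
import Fermat.Agent.Lib.Kummer.Defs

set_option autoImplicit false
set_option linter.unusedSectionVars false

open NumberField Polynomial Finset

namespace Fermat.Agent.Lib.Kummer

namespace Descent

/-! ### Abstract Kummer descent in a principal ideal domain -/

section Abstract

variable {R : Type*} [CommRing R] [IsDomain R]
  {p : ℕ} {ζ : R}

/-- `ζ - 1` divides `p`. -/
lemma lam_dvd_p (hp : p.Prime) (hζ : IsPrimitiveRoot ζ p) : ζ - 1 ∣ (p : R) :=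
  hζ.sub_one_dvd_natCast hp.one_lt

/-- `p`-th powers are congruent to integers modulo `p`. -/
lemma exists_int_pow_congr (hp : p.Prime)
    (hint : ∀ x : R, ∃ n : ℤ, ζ - 1 ∣ x - (n : R))
    (hass : Associated ((ζ - 1) ^ (p - 1)) (p : R)) (x : R) :
    ∃ n : ℤ, (p : R) ∣ x ^ p - (n : R) := by
  obtain ⟨n, t, ht⟩ := hint x
  obtain ⟨r, hr⟩ := exists_add_pow_prime_eq hp (n : R) ((ζ - 1) * t)
  obtain ⟨s, hs⟩ := hass.symm.dvd
  refine ⟨n ^ p, ?_⟩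
  have hx : x = (n : R) + (ζ - 1) * t := by rw [← ht]; ring
  have hpow : (ζ - 1) ^ p = (ζ - 1) ^ (p - 1) * (ζ - 1) := by
    rw [← pow_succ, Nat.sub_add_cancel hp.one_le]
  refine ⟨s * (ζ - 1) * t ^ p + (n : R) * ((ζ - 1) * t) * r, ?_⟩
  rw [hx, hr, mul_pow, hpow, hs]
  push_cast
  ring

/-- The geometric sum `1 + ζ + ⋯ + ζ ^ (k - 1)` is congruent to `k` modulo `ζ - 1`. -/
lemma lam_dvd_geom_sum_sub (k : ℕ) : ζ - 1 ∣ (∑ i ∈ range k, ζ ^ i) - (k : R) := by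
  have : (∑ i ∈ range k, ζ ^ i) - (k : R) = ∑ i ∈ range k, (ζ ^ i - 1) := by
    rw [Finset.sum_sub_distrib]; simp
  rw [this]
  refine Finset.dvd_sum fun i _ => ?_
  simpa using sub_dvd_pow_sub_pow ζ 1 i

lemma one_mem_roots (hp : p.Prime) : (1 : R) ∈ nthRootsFinset p (1 : R) := by
  rw [mem_nthRootsFinset hp.pos]; simp

lemma pow_mem_roots (hp : p.Prime) (hζ : IsPrimitiveRoot ζ p) (k : ℕ) :
    ζ ^ k ∈ nthRootsFinset p (1 : R) := by
  rw [mem_nthRootsFinset hp.pos, ← pow_mul, mul_comm, pow_mul, hζ.pow_eq_one, one_pow]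

/-- If `ζ - 1` divides one factor `x + η₀ y`, it divides all of them. -/
lemma lam_dvd_all (hp : p.Prime) (hζ : IsPrimitiveRoot ζ p) {x y η₀ η : R}
    (hη₀ : η₀ ∈ nthRootsFinset p (1 : R)) (hη : η ∈ nthRootsFinset p (1 : R))
    (h : ζ - 1 ∣ x + η₀ * y) : ζ - 1 ∣ x + η * y := by
  have h1 : ζ - 1 ∣ η - η₀ := hζ.sub_one_dvd_sub hp hη hη₀
  have : x + η * y = (x + η₀ * y) + (η - η₀) * y := by ring
  rw [this]
  exact dvd_add h (Dvd.dvd.mul_right h1 y)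

/-- Some factor is divisible by `(ζ - 1) ^ 2`. -/
lemma exists_sq_dvd (hp : p.Prime) (hζ : IsPrimitiveRoot ζ p)
    (hint : ∀ x : R, ∃ n : ℤ, ζ - 1 ∣ x - (n : R))
    {x y : R} (hxy : ζ - 1 ∣ x + y) (hy : ¬ ζ - 1 ∣ y) :
    ∃ k : ℕ, (ζ - 1) ^ 2 ∣ x + ζ ^ k * y := by
  obtain ⟨t, ht⟩ := hxy
  obtain ⟨t0, ht0⟩ := hint t
  obtain ⟨y0, hy0⟩ := hint y
  have hy0p : ¬ (p : ℤ) ∣ y0 := by
    intro h
    apply hy
    have h1 : ζ - 1 ∣ (y0 : R) := by
      obtain ⟨c, rfl⟩ := h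
      push_cast
      exact Dvd.dvd.mul_right (lam_dvd_p hp hζ) _
    have := dvd_add hy0 h1
    simpa using this
  -- choose `k` with `p ∣ t0 + k * y0`
  have : Fact p.Prime := ⟨hp⟩
  have hy0' : (y0 : ZMod p) ≠ 0 := by
    rwa [Ne, ZMod.intCast_zmod_eq_zero_iff_dvd]
  obtain ⟨k, hk⟩ : ∃ k : ℕ, (p : ℤ) ∣ t0 + k * y0 := by
    refine ⟨(-(t0 : ZMod p) / (y0 : ZMod p)).val, ?_⟩
    rw [← ZMod.intCast_zmod_eq_zero_iff_dvd]
    push_cast
    rw [ZMod.natCast_zmod_val]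
    field_simp
    ring
  refine ⟨k, ?_⟩
  have hk' : ζ - 1 ∣ ((t0 + k * y0 : ℤ) : R) := by
    obtain ⟨c, hc⟩ := hk
    rw [hc]
    push_cast
    exact Dvd.dvd.mul_right (lam_dvd_p hp hζ) _
  have key : x + ζ ^ k * y = (ζ - 1) * (t + (∑ i ∈ range k, ζ ^ i) * y) := by
    have := mul_geom_sum ζ k
    calc x + ζ ^ k * y = (x + y) + (ζ ^ k - 1) * y := by ring
      _ = (ζ - 1) * t + ((ζ - 1) * ∑ i ∈ range k, ζ ^ i) * y := by rw [ht, this]
      _ = _ := by ring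
  rw [key, pow_two]
  refine mul_dvd_mul_left _ ?_
  have : t + (∑ i ∈ range k, ζ ^ i) * y =
      (t - t0) + ((∑ i ∈ range k, ζ ^ i) - (k : R)) * y + (k : R) * (y - y0)
        + ((t0 + k * y0 : ℤ) : R) := by
    push_cast; ring
  rw [this]
  exact dvd_add (dvd_add (dvd_add ht0 (Dvd.dvd.mul_right (lam_dvd_geom_sum_sub k) _))
    (Dvd.dvd.mul_left hy0 _)) hk'

/-- The quotients `(x + η y) / (ζ - 1)` are pairwise coprime. -/
lemma isCoprime_quot (hp : p.Prime) (hζ : IsPrimitiveRoot ζ p) (hlam : Prime (ζ - 1))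
    {x y : R} (hxy : IsCoprime x y) {η₁ η₂ w₁ w₂ : R}
    (hη₁ : η₁ ∈ nthRootsFinset p (1 : R)) (hη₂ : η₂ ∈ nthRootsFinset p (1 : R)) (hne : η₁ ≠ η₂)
    (hw₁ : x + η₁ * y = (ζ - 1) * w₁) (hw₂ : x + η₂ * y = (ζ - 1) * w₂) :
    IsCoprime w₁ w₂ := by
  obtain ⟨u, hu⟩ := hζ.nthRootsFinset_pairwise_associated_sub_one_sub_of_prime hp hη₁ hη₂ hne
  obtain ⟨a, b, hab⟩ := hxy
  have h1 : w₁ - w₂ = u * y := by
    apply mul_left_cancel₀ hlam.ne_zero
    calc (ζ - 1) * (w₁ - w₂) = (x + η₁ * y) - (x + η₂ * y) := by rw [hw₁, hw₂]; ring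
      _ = (η₁ - η₂) * y := by ring
      _ = (ζ - 1) * (u * y) := by rw [← hu]; ring
  have h2 : η₁ * w₂ - η₂ * w₁ = u * x := by
    apply mul_left_cancel₀ hlam.ne_zero
    calc (ζ - 1) * (η₁ * w₂ - η₂ * w₁) = η₁ * (x + η₂ * y) - η₂ * (x + η₁ * y) := by
          rw [hw₁, hw₂]; ring
      _ = (η₁ - η₂) * x := by ring
      _ = (ζ - 1) * (u * x) := by rw [← hu]; ring
  refine ⟨(↑u⁻¹ : R) * (b - a * η₂), (↑u⁻¹ : R) * (a * η₁ - b), ?_⟩
  calc (↑u⁻¹ : R) * (b - a * η₂) * w₁ + (↑u⁻¹ : R) * (a * η₁ - b) * w₂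
      = (↑u⁻¹ : R) * (a * (η₁ * w₂ - η₂ * w₁) + b * (w₁ - w₂)) := by ring
    _ = (↑u⁻¹ : R) * (u : R) * (a * x + b * y) := by rw [h1, h2]; ring
    _ = 1 := by rw [hab, Units.inv_mul, one_mul]

/-- One descent step, assuming `(ζ - 1) ^ 2 ∣ x + y`. -/
lemma descent_step [IsPrincipalIdealRing R] (hp : p.Prime) (hp2 : p ≠ 2)
    (hζ : IsPrimitiveRoot ζ p) (hlam : Prime (ζ - 1))
    (hint : ∀ x : R, ∃ n : ℤ, ζ - 1 ∣ x - (n : R))
    (hass : Associated ((ζ - 1) ^ (p - 1)) (p : R))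
    (hK : ∀ u : Rˣ, (∃ n : ℤ, (p : R) ∣ (u : R) - (n : R)) → ∃ v : Rˣ, u = v ^ p)
    {n : ℕ} {x y z : R} {ε : Rˣ} (hn : 1 ≤ n) (hxy : IsCoprime x y) (hz : ¬ ζ - 1 ∣ z)
    (hsq : (ζ - 1) ^ 2 ∣ x + y)
    (H : x ^ p + y ^ p = ε * ((ζ - 1) ^ n * z) ^ p) :
    ∃ (m : ℕ) (x' y' z' : R) (ε' : Rˣ), 1 ≤ m ∧ m < n ∧ IsCoprime x' y' ∧ ¬ ζ - 1 ∣ z' ∧
      x' ^ p + y' ^ p = ε' * ((ζ - 1) ^ m * z') ^ p := by
  classical
  have hlamxy : ζ - 1 ∣ x + y := dvd_trans (dvd_pow_self _ two_ne_zero) hsq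
  have hy : ¬ ζ - 1 ∣ y := by
    intro h
    have h2 : ζ - 1 ∣ x := (dvd_add_left h).mp hlamxy
    exact hlam.not_isUnit (hxy.isUnit_of_dvd' h2 h)
  -- all factors are divisible by `ζ - 1`
  have hdiv : ∀ η ∈ nthRootsFinset p (1 : R), ∃ w, x + η * y = (ζ - 1) * w := by
    intro η hη
    exact lam_dvd_all hp hζ (one_mem_roots hp) hη (by simpa using hlamxy)
  choose! w hw using hdiv
  have hone := one_mem_roots (R := R) hp
  -- for `η ≠ 1` the quotient is prime to `ζ - 1`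
  have hnd : ∀ η ∈ nthRootsFinset p (1 : R), η ≠ 1 → ¬ ζ - 1 ∣ w η := by
    intro η hη hη1 h
    obtain ⟨u, hu⟩ :=
      hζ.nthRootsFinset_pairwise_associated_sub_one_sub_of_prime hp hη hone hη1
    have h1 : (ζ - 1) ^ 2 ∣ x + η * y := by
      rw [hw η hη, pow_two]; exact mul_dvd_mul_left _ h
    have h2 : (ζ - 1) ^ 2 ∣ (η - 1) * y := by
      have : (η - 1) * y = (x + η * y) - (x + y) := by ring
      rw [this]; exact dvd_sub h1 hsq
    rw [← hu, pow_two, mul_assoc] at h2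
    have h3 : ζ - 1 ∣ u * y := (mul_dvd_mul_iff_left hlam.ne_zero).mp h2
    exact hy ((Units.dvd_mul_left).mp h3)
  -- the product of the quotients
  have hprod : ∏ η ∈ nthRootsFinset p (1 : R), w η = ε * ((ζ - 1) ^ (n - 1) * z) ^ p := by
    have h1 : x ^ p + y ^ p = ∏ η ∈ nthRootsFinset p (1 : R), (x + η * y) :=
      hζ.pow_add_pow_eq_prod_add_mul x y (hp.odd_of_ne_two hp2)
    have h2 : ∏ η ∈ nthRootsFinset p (1 : R), (x + η * y) =
        (ζ - 1) ^ p * ∏ η ∈ nthRootsFinset p (1 : R), w η := by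
      rw [Finset.prod_congr rfl hw, Finset.prod_mul_distrib, Finset.prod_const,
        hζ.card_nthRootsFinset]
    apply mul_left_cancel₀ (pow_ne_zero p hlam.ne_zero)
    rw [← h2, ← h1, H]
    obtain ⟨n', rfl⟩ : ∃ n', n = n' + 1 := ⟨n - 1, by omega⟩
    simp only [Nat.add_sub_cancel]
    generalize ζ - 1 = l
    ring
  -- each quotient is a `p`-th power up to a unit
  have hpow : ∀ η ∈ nthRootsFinset p (1 : R), ∃ d : R, Associated (d ^ p) (w η) := by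
    intro η hη
    have hcop : IsCoprime (w η) (∏ η' ∈ (nthRootsFinset p (1 : R)).erase η, w η') := by
      refine IsCoprime.prod_right fun η' hη' => ?_
      rw [Finset.mem_erase] at hη'
      exact isCoprime_quot hp hζ hlam hxy hη hη'.2 hη'.1.symm (hw η hη) (hw η' hη'.2)
    refine exists_associated_pow_of_associated_pow_mul hcop (c := (ζ - 1) ^ (n - 1) * z) ?_
    rw [Finset.mul_prod_erase _ _ hη, hprod]
    exact (associated_unit_mul_right _ _ ε.isUnit)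
  have hζm : ζ ∈ nthRootsFinset p (1 : R) := by simpa using pow_mem_roots hp hζ 1
  have hζi : ζ ^ (p - 1) ∈ nthRootsFinset p (1 : R) := pow_mem_roots hp hζ (p - 1)
  have h3 : 3 ≤ p := by have := hp.two_le; omega
  have hζi1 : ζ ^ (p - 1) ≠ 1 := hζ.pow_ne_one_of_pos_of_lt (by omega) (by omega)
  have hζζi : ζ ≠ ζ ^ (p - 1) := by
    intro h
    have h' : ζ ^ (p - 2) = 1 := by
      have h'' : ζ * ζ ^ (p - 2) = ζ * 1 := by
        rw [← pow_succ', mul_one, show p - 2 + 1 = p - 1 by omega]; exact h.symm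
      exact mul_left_cancel₀ (hζ.ne_zero hp.ne_zero) h''
    exact hζ.pow_ne_one_of_pos_of_lt (by omega) (by omega) h'
  obtain ⟨d₁, u₁, hd₁⟩ := hpow ζ hζm
  obtain ⟨d₂, u₂, hd₂⟩ := hpow _ hζi
  obtain ⟨d₀, u₀, hd₀⟩ := hpow 1 hone
  -- the linear relation
  have hrel : w ζ + ζ * w (ζ ^ (p - 1)) = (1 + ζ) * w 1 := by
    apply mul_left_cancel₀ hlam.ne_zero
    have hζp : ζ * ζ ^ (p - 1) = 1 := by
      rw [← pow_succ', Nat.sub_add_cancel hp.one_le, hζ.pow_eq_one]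
    calc (ζ - 1) * (w ζ + ζ * w (ζ ^ (p - 1)))
        = (x + ζ * y) + ζ * (x + ζ ^ (p - 1) * y) := by rw [hw ζ hζm, hw _ hζi]; ring
      _ = (1 + ζ) * x + ζ * y + (ζ * ζ ^ (p - 1)) * y := by ring
      _ = (1 + ζ) * (x + 1 * y) := by rw [hζp]; ring
      _ = (ζ - 1) * ((1 + ζ) * w 1) := by rw [hw 1 hone]; ring
  have hw1 : ζ - 1 ∣ w 1 := by
    have : (ζ - 1) ^ 2 ∣ (ζ - 1) * w 1 := by rw [← hw 1 hone]; simpa using hsq
    rw [pow_two] at this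
    exact (mul_dvd_mul_iff_left hlam.ne_zero).mp this
  have hd₀lam : ζ - 1 ∣ d₀ := by
    have : ζ - 1 ∣ d₀ ^ p * u₀ := hd₀ ▸ hw1
    exact hlam.dvd_of_dvd_pow ((Units.dvd_mul_right).mp this)
  have hz0 : z ≠ 0 := fun h => hz (h ▸ dvd_zero _)
  have hd₀0 : d₀ ≠ 0 := by
    rintro rfl
    have hw10 : w 1 = 0 := by rw [← hd₀, zero_pow hp.ne_zero, zero_mul]
    have : ∏ η ∈ nthRootsFinset p (1 : R), w η = 0 := Finset.prod_eq_zero hone hw10
    rw [hprod] at this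
    exact (mul_ne_zero ε.ne_zero
      (pow_ne_zero p (mul_ne_zero (pow_ne_zero _ hlam.ne_zero) hz0))) this
  obtain ⟨m, z', hz', hd₀z⟩ := WfDvdMonoid.max_power_factor hd₀0 hlam.irreducible
  have hm1 : 1 ≤ m := by
    rcases Nat.eq_zero_or_pos m with rfl | h
    · exfalso; apply hz'; simpa [hd₀z] using hd₀lam
    · exact h
  have hmn : m < n := by
    by_contra hcon
    rw [not_lt] at hcon
    have h1 : (ζ - 1) ^ (m * p) ∣ ∏ η ∈ nthRootsFinset p (1 : R), w η := by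
      refine dvd_trans ?_ (Finset.dvd_prod_of_mem w hone)
      rw [← hd₀, hd₀z, mul_pow, ← pow_mul]
      exact Dvd.dvd.mul_right (Dvd.intro _ rfl) _
    rw [hprod, mul_pow, ← pow_mul] at h1
    have hle : (n - 1) * p + 1 ≤ m * p := by
      calc (n - 1) * p + 1 ≤ (n - 1) * p + p := by omega
        _ = n * p := by
          obtain ⟨n', rfl⟩ : ∃ n', n = n' + 1 := ⟨n - 1, by omega⟩
          simp only [Nat.add_sub_cancel]; ring
        _ ≤ m * p := Nat.mul_le_mul_right p hcon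
    have h4 := dvd_trans (pow_dvd_pow (ζ - 1) hle) h1
    rw [pow_succ, show (ε : R) * ((ζ - 1) ^ ((n - 1) * p) * z ^ p) =
      (ζ - 1) ^ ((n - 1) * p) * (ε * z ^ p) by ring] at h4
    have h5 := (mul_dvd_mul_iff_left (pow_ne_zero _ hlam.ne_zero)).mp h4
    exact hz (hlam.dvd_of_dvd_pow ((Units.dvd_mul_left).mp h5))
  -- the new equation
  have h1ζ : IsUnit (1 + ζ) := by
    have := hζ.geom_sum_isUnit hp.two_le (j := 2)
      ((Nat.coprime_primes Nat.prime_two hp).mpr (Ne.symm hp2))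
    simpa [Finset.sum_range_succ] using this
  obtain ⟨ζu, hζu⟩ := hζ.isUnit hp.ne_zero
  obtain ⟨σu, hσu⟩ := h1ζ
  have hnew : d₁ ^ p + ((ζu * u₂ * u₁⁻¹ : Rˣ) : R) * d₂ ^ p =
      ((σu * u₀ * u₁⁻¹ : Rˣ) : R) * ((ζ - 1) ^ m * z') ^ p := by
    apply mul_left_cancel₀ u₁.ne_zero
    calc (u₁ : R) * (d₁ ^ p + ((ζu * u₂ * u₁⁻¹ : Rˣ) : R) * d₂ ^ p)
        = d₁ ^ p * u₁ + ζ * (d₂ ^ p * u₂) * (u₁ * ↑u₁⁻¹) := by
          push_cast; rw [hζu]; ring
      _ = w ζ + ζ * w (ζ ^ (p - 1)) := by rw [hd₁, hd₂, Units.mul_inv, mul_one]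
      _ = (1 + ζ) * w 1 := hrel
      _ = (1 + ζ) * (d₀ ^ p * u₀) * (u₁ * ↑u₁⁻¹) := by rw [hd₀, Units.mul_inv, mul_one]
      _ = (u₁ : R) * (((σu * u₀ * u₁⁻¹ : Rˣ) : R) * ((ζ - 1) ^ m * z') ^ p) := by
          push_cast; rw [hσu, hd₀z]; ring
  -- Kummer's lemma applies
  have hpdvd : (p : R) ∣ ((ζ - 1) ^ m * z') ^ p := by
    refine dvd_trans hass.symm.dvd ?_
    rw [mul_pow, ← pow_mul]
    refine Dvd.dvd.mul_right (pow_dvd_pow _ ?_) _
    calc p - 1 ≤ 1 * p := by omega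
      _ ≤ m * p := Nat.mul_le_mul_right p hm1
  obtain ⟨a, ha⟩ := exists_int_pow_congr hp hint hass d₁
  obtain ⟨b, hb⟩ := exists_int_pow_congr hp hint hass d₂
  have hd₂lam : ¬ ζ - 1 ∣ d₂ := by
    intro h
    apply hnd _ hζi hζi1
    rw [← hd₂]
    exact Dvd.dvd.mul_right (dvd_pow h hp.ne_zero) _
  have hbp : ¬ (p : ℤ) ∣ b := by
    intro h
    apply hd₂lam
    apply hlam.dvd_of_dvd_pow (n := p)
    have h1 : (p : R) ∣ (b : R) := by
      obtain ⟨c, rfl⟩ := h; push_cast; exact Dvd.intro _ rfl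
    have h2 : (p : R) ∣ d₂ ^ p := by simpa using dvd_add hb h1
    exact dvd_trans (lam_dvd_p hp hζ) h2
  have hcop : IsCoprime b (p : ℤ) := by
    rw [isCoprime_comm]; exact (Nat.prime_iff_prime_int.mp hp).coprime_iff_not_dvd.mpr hbp
  obtain ⟨r, s, hrs⟩ := hcop
  obtain ⟨v, hv⟩ := hK (ζu * u₂ * u₁⁻¹) ⟨-(r * a), by
    have hrs' : (r : R) * b + s * p = 1 := by
      have h := congrArg (Int.cast : ℤ → R) hrs
      push_cast at h
      exact h
    have : ((ζu * u₂ * u₁⁻¹ : Rˣ) : R) - ((-(r * a) : ℤ) : R) =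
        r * ((d₁ ^ p + ((ζu * u₂ * u₁⁻¹ : Rˣ) : R) * d₂ ^ p)
          - ((ζu * u₂ * u₁⁻¹ : Rˣ) : R) * (d₂ ^ p - b) - (d₁ ^ p - a))
          + p * (s * ((ζu * u₂ * u₁⁻¹ : Rˣ) : R)) := by
      generalize ((ζu * u₂ * u₁⁻¹ : Rˣ) : R) = e
      push_cast
      linear_combination (-e) * hrs'
    rw [this]
    refine dvd_add (Dvd.dvd.mul_left (dvd_sub (dvd_sub ?_ (Dvd.dvd.mul_left hb _)) ha) _)
      (Dvd.intro _ rfl)
    rw [hnew]; exact Dvd.dvd.mul_left hpdvd _⟩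
  refine ⟨m, d₁, v * d₂, z', σu * u₀ * u₁⁻¹, hm1, hmn, ?_, hz', ?_⟩
  · rw [isCoprime_mul_unit_left_right v.isUnit]
    have h12 : IsCoprime (w ζ) (w (ζ ^ (p - 1))) :=
      isCoprime_quot hp hζ hlam hxy hζm hζi hζζi (hw _ hζm) (hw _ hζi)
    have hd1 : d₁ ∣ w ζ := by
      rw [← hd₁]; exact Dvd.dvd.mul_right (dvd_pow_self _ hp.ne_zero) _
    have hd2 : d₂ ∣ w (ζ ^ (p - 1)) := by
      rw [← hd₂]; exact Dvd.dvd.mul_right (dvd_pow_self _ hp.ne_zero) _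
    exact (h12.of_isCoprime_of_dvd_left hd1).of_isCoprime_of_dvd_right hd2
  · rw [mul_pow, ← Units.val_pow_eq_pow_val, ← hv]; exact hnew

/-- **Kummer descent**: the generalised Fermat equation has no solution in the second case. -/
theorem no_solution [IsPrincipalIdealRing R] (hp : p.Prime) (hp2 : p ≠ 2)
    (hζ : IsPrimitiveRoot ζ p) (hlam : Prime (ζ - 1))
    (hint : ∀ x : R, ∃ n : ℤ, ζ - 1 ∣ x - (n : R))
    (hass : Associated ((ζ - 1) ^ (p - 1)) (p : R))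
    (hK : ∀ u : Rˣ, (∃ n : ℤ, (p : R) ∣ (u : R) - (n : R)) → ∃ v : Rˣ, u = v ^ p) :
    ∀ (n : ℕ) (x y z : R) (ε : Rˣ), 1 ≤ n → IsCoprime x y → ¬ ζ - 1 ∣ z →
      x ^ p + y ^ p ≠ ε * ((ζ - 1) ^ n * z) ^ p := by
  intro n
  induction n using Nat.strong_induction_on with
  | _ n ih =>
    intro x y z ε hn hxy hz H
    have h1 : ζ - 1 ∣ x ^ p + y ^ p := by
      rw [H, mul_pow, ← pow_mul]
      refine Dvd.dvd.mul_left (Dvd.dvd.mul_right (dvd_pow_self _ ?_) _) _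
      exact Nat.mul_ne_zero (by omega) hp.ne_zero
    rw [hζ.pow_add_pow_eq_prod_add_mul x y (hp.odd_of_ne_two hp2)] at h1
    obtain ⟨η₁, hη₁, h2⟩ := hlam.exists_mem_finset_dvd h1
    have hlamxy : ζ - 1 ∣ x + y := by
      simpa using lam_dvd_all hp hζ hη₁ (one_mem_roots hp) h2
    have hy : ¬ ζ - 1 ∣ y := by
      intro h
      have h2 : ζ - 1 ∣ x := (dvd_add_left h).mp hlamxy
      exact hlam.not_isUnit (hxy.isUnit_of_dvd' h2 h)
    obtain ⟨k, hk⟩ := exists_sq_dvd hp hζ hint hlamxy hy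
    have hζk : (ζ ^ k) ^ p = 1 := by
      rw [← pow_mul, mul_comm, pow_mul, hζ.pow_eq_one, one_pow]
    have hunit : IsUnit (ζ ^ k) := (hζ.isUnit hp.ne_zero).pow k
    obtain ⟨m, x', y', z', ε', hm1, hmn, hxy', hz', H'⟩ :=
      descent_step hp hp2 hζ hlam hint hass hK hn
        ((isCoprime_mul_unit_left_right hunit x y).mpr hxy) hz hk
        (by rw [mul_pow, hζk, one_mul]; exact H)
    exact ih m hmn x' y' z' ε' hm1 hxy' hz' H'

/-- The second case of Fermat's Last Theorem over `ℤ` from the abstract descent. -/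
theorem caseII_of_abstract [IsPrincipalIdealRing R] (hp : p.Prime) (hp2 : p ≠ 2)
    (hζ : IsPrimitiveRoot ζ p) (hlam : Prime (ζ - 1))
    (hint : ∀ x : R, ∃ n : ℤ, ζ - 1 ∣ x - (n : R))
    (hass : Associated ((ζ - 1) ^ (p - 1)) (p : R))
    (hdvd : ∀ n : ℤ, ζ - 1 ∣ (n : R) → (p : ℤ) ∣ n)
    (hK : ∀ u : Rˣ, (∃ n : ℤ, (p : R) ∣ (u : R) - (n : R)) → ∃ v : Rˣ, u = v ^ p) :
    CaseII p := by
  intro a b c hab hc hpc H
  have hpZ : Prime (p : ℤ) := Nat.prime_iff_prime_int.mp hp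
  obtain ⟨k, c', hc', hcc'⟩ := WfDvdMonoid.max_power_factor hc hpZ.irreducible
  have hk : 1 ≤ k := by
    rcases Nat.eq_zero_or_pos k with rfl | h
    · exfalso; apply hc'; simpa [hcc'] using hpc
    · exact h
  obtain ⟨u, hu⟩ := hass
  refine no_solution hp hp2 hζ hlam hint ⟨u, hu⟩ hK (k * (p - 1)) (a : R) (b : R) (c' : R)
    ((u ^ k) ^ p) ?_ hab.intCast (fun h => hc' (hdvd c' h)) ?_
  · have := hp.two_le
    exact Nat.mul_pos hk (by omega)
  · have h1 : (a : R) ^ p + (b : R) ^ p = (c : R) ^ p := by exact_mod_cast congrArg (Int.cast : ℤ → R) H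
    rw [h1, hcc']
    push_cast
    rw [← hu]
    generalize ζ - 1 = l
    ring

end Abstract

/-! ### Instantiation for the ring of integers of the cyclotomic field -/

section Cyclotomic

variable {K : Type} [Field K] [NumberField K] {p : ℕ}

lemma exists_int_congr [NeZero p] [IsCyclotomicExtension {p} ℚ K] {ζ : K}
    (hζ : IsPrimitiveRoot ζ p) (x : 𝓞 K) :
    ∃ n : ℤ, hζ.toInteger - 1 ∣ x - (n : 𝓞 K) := by
  let B := hζ.integralPowerBasis
  obtain ⟨c, hx⟩ : ∃ c : Fin B.dim → ℤ, x = ∑ i, c i • hζ.toInteger ^ (i : ℕ) := by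
    refine ⟨fun i => B.basis.repr x i, ?_⟩
    conv_lhs => rw [← B.basis.sum_repr x]
    simp [B, PowerBasis.coe_basis]
  refine ⟨∑ i, c i, ?_⟩
  have : x - ((∑ i, c i : ℤ) : 𝓞 K) =
      ∑ i, (c i : 𝓞 K) * (hζ.toInteger ^ (i : ℕ) - 1) := by
    rw [hx]
    push_cast
    rw [← Finset.sum_sub_distrib]
    refine Finset.sum_congr rfl fun i _ => ?_
    rw [zsmul_eq_mul]; ring
  rw [this]
  exact Finset.dvd_sum fun i _ =>
    Dvd.dvd.mul_left (by simpa using sub_dvd_pow_sub_pow hζ.toInteger 1 (i : ℕ)) _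

end Cyclotomic

end Descent

/-- **Second case of Fermat's Last Theorem** for an odd prime `p` such that the ring of integers
of the `p`-th cyclotomic field is principal and satisfies Kummer's lemma. -/
theorem caseII_of_pid_of_kummerLemma (p : ℕ) [Fact p.Prime] (hp2 : p ≠ 2)
    (K : Type) [Field K] [NumberField K] [IsCyclotomicExtension {p} ℚ K]
    [IsPrincipalIdealRing (𝓞 K)] (hK : KummerLemma p K) : CaseII p := by
  have hp : p.Prime := Fact.out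
  have hζ := IsCyclotomicExtension.zeta_spec p ℚ K
  exact Descent.caseII_of_abstract hp hp2 hζ.toInteger_isPrimitiveRoot hζ.zeta_sub_one_prime'
    (Descent.exists_int_congr hζ)
    (IsCyclotomicExtension.Rat.associated_zeta_sub_one_pow_prime p hζ)
    (fun _ h => (IsCyclotomicExtension.Rat.zeta_sub_one_dvd_intCast_iff' p hζ).mp h) hK

end Fermat.Agent.Lib.Kummer
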