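import Fermat.Agent.Lib.Kummer.Cert

set_option autoImplicit false
set_option linter.unusedSimpArgs false

open NumberField Polynomial

namespace Fermat.Agent.Lib.Kummer

theorem kummerLemma_eleven (K : Type) [Field K] [NumberField K] [IsCyclotomicExtension {11} ℚ K] :
    KummerLemma 11 K := by
  have : Fact (Nat.Prime 11) := ⟨by norm_num⟩
  have hζ := IsCyclotomicExtension.zeta_spec 11 ℚ K
  obtain ⟨l, hl⟩ : ∃ l, l = hζ.toInteger - 1 := ⟨_, rfl⟩
  have hzl : hζ.toInteger = l + 1 := by rw [hl]; ring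
  refine kummerLemma_of_matrix hζ (by norm_num) (n := 5) (N := 9) (by norm_num) (by norm_num)
    ![zetaUnit hζ, cycUnit hζ 2 (by norm_num), cycUnit hζ 3 (by norm_num), cycUnit hζ 4 (by norm_num), cycUnit hζ 5 (by norm_num)]
    ![![1, -1, 1, -1, 1, -1, 1, -1, 1],
      ![-5, -3, -4, 2, -1, -5, -3, -4, 2],
      ![1, -4, 0, 5, -5, -4, 2, 3, 0],
      ![-4, -3, 1, -3, -4, -5, 4, 0, 0],
      ![2, 0, -1, 3, 0, -5, 5, -5, 5]] ?_ ?_
  · intro j
    fin_cases j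
    · refine toAdd_dlog_of_cert hζ _ 1 _ ((-1)) (0)
        (by simp only [Fin.zero_eta, Fin.isValue, Matrix.cons_val_zero, coe_zetaUnit, der_zeta, map_one]) ?_
      simp only [Fin.zero_eta, Fin.mk_one, Fin.reduceFinMk, Fin.isValue, Matrix.cons_val, coe_zetaUnit, coe_cycUnit, ← hl, hzl,
        Fin.sum_univ_succ, Finset.sum_range_succ, Finset.sum_range_zero, Fin.sum_univ_zero, Matrix.cons_val_zero, Matrix.cons_val_succ]
      norm_num
      ring
    · refine toAdd_dlog_of_cert hζ _ _ _ ((-2)) (1 + 1 * l + 1 * l ^ 2 + 1 * l ^ 5 + 1 * l ^ 6 + 1 * l ^ 7) (der_geom_sum hζ 2) ?_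
      simp only [Fin.zero_eta, Fin.mk_one, Fin.reduceFinMk, Fin.isValue, Matrix.cons_val, coe_zetaUnit, coe_cycUnit, ← hl, hzl,
        Fin.sum_univ_succ, Finset.sum_range_succ, Finset.sum_range_zero, Fin.sum_univ_zero, Matrix.cons_val_zero, Matrix.cons_val_succ]
      norm_num
      ring
    · refine toAdd_dlog_of_cert hζ _ _ _ ((-3)) (1 * l + 1 * l ^ 2 + (-1) * l ^ 3 + 2 * l ^ 5 + 1 * l ^ 6 + (-1) * l ^ 7 + (-1) * l ^ 8) (der_geom_sum hζ 3) ?_
      simp only [Fin.zero_eta, Fin.mk_one, Fin.reduceFinMk, Fin.isValue, Matrix.cons_val, coe_zetaUnit, coe_cycUnit, ← hl, hzl,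
        Fin.sum_univ_succ, Finset.sum_range_succ, Finset.sum_range_zero, Fin.sum_univ_zero, Matrix.cons_val_zero, Matrix.cons_val_succ]
      norm_num
      ring
    · refine toAdd_dlog_of_cert hζ _ _ _ ((-4)) (2 + 4 * l + 3 * l ^ 2 + 2 * l ^ 3 + 3 * l ^ 4 + 5 * l ^ 5 + 3 * l ^ 6 + (-1) * l ^ 8) (der_geom_sum hζ 4) ?_
      simp only [Fin.zero_eta, Fin.mk_one, Fin.reduceFinMk, Fin.isValue, Matrix.cons_val, coe_zetaUnit, coe_cycUnit, ← hl, hzl,
        Fin.sum_univ_succ, Finset.sum_range_succ, Finset.sum_range_zero, Fin.sum_univ_zero, Matrix.cons_val_zero, Matrix.cons_val_succ]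
      norm_num
      ring
    · refine toAdd_dlog_of_cert hζ _ _ _ ((-20) + (-30) * l + (-20) * l ^ 2 + (-5) * l ^ 3) ((-1) * l ^ 3 + (-2) * l ^ 4 + 1 * l ^ 6 + 2 * l ^ 7) (der_geom_sum hζ 5) ?_
      simp only [Fin.zero_eta, Fin.mk_one, Fin.reduceFinMk, Fin.isValue, Matrix.cons_val, coe_zetaUnit, coe_cycUnit, ← hl, hzl,
        Fin.sum_univ_succ, Finset.sum_range_succ, Finset.sum_range_zero, Fin.sum_univ_zero, Matrix.cons_val_zero, Matrix.cons_val_succ]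
      norm_num
      ring
  · intro c h
    obtain ⟨t0, h0⟩ := h 0
    obtain ⟨t1, h1⟩ := h 1
    obtain ⟨t3, h3⟩ := h 3
    obtain ⟨t5, h5⟩ := h 5
    obtain ⟨t7, h7⟩ := h 7
    simp only [Fin.sum_univ_five, Matrix.cons_val_zero, Matrix.cons_val_succ, Fin.isValue, Matrix.cons_val] at h0 h1 h3 h5 h7
    intro j
    fin_cases j
    · refine ⟨(-2) * t0 + (1) * t1 + (-2) * t3 + (0) * t5 + (-2) * t7 - ((0) * c 0 + (1) * c 1 + (-2) * c 2 + (1) * c 3 + (0) * c 4), ?_⟩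
      simp only [Fin.zero_eta, Fin.mk_one, Fin.reduceFinMk, Fin.isValue, Nat.cast_ofNat]
      linear_combination (-2) * h0 + (1) * h1 + (-2) * h3 + (0) * h5 + (-2) * h7
    · refine ⟨(-5) * t0 + (-3) * t1 + (0) * t3 + (-3) * t5 + (1) * t7 - ((0) * c 0 + (4) * c 1 + (2) * c 2 + (4) * c 3 + (0) * c 4), ?_⟩
      simp only [Fin.zero_eta, Fin.mk_one, Fin.reduceFinMk, Fin.isValue, Nat.cast_ofNat]
      linear_combination (-5) * h0 + (-3) * h1 + (0) * h3 + (-3) * h5 + (1) * h7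
    · refine ⟨(-4) * t0 + (-4) * t1 + (1) * t3 + (5) * t5 + (5) * t7 - ((-1) * c 0 + (-1) * c 1 + (1) * c 2 + (0) * c 3 + (-5) * c 4), ?_⟩
      simp only [Fin.zero_eta, Fin.mk_one, Fin.reduceFinMk, Fin.isValue, Nat.cast_ofNat]
      linear_combination (-4) * h0 + (-4) * h1 + (1) * h3 + (5) * h5 + (5) * h7
    · refine ⟨(0) * t0 + (4) * t1 + (3) * t3 + (0) * t5 + (4) * t7 - ((-1) * c 0 + (-2) * c 1 + (1) * c 2 + (-2) * c 3 + (-1) * c 4), ?_⟩
      simp only [Fin.zero_eta, Fin.mk_one, Fin.reduceFinMk, Fin.isValue, Nat.cast_ofNat]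
      linear_combination (0) * h0 + (4) * h1 + (3) * h3 + (0) * h5 + (4) * h7
    · refine ⟨(2) * t0 + (2) * t1 + (1) * t3 + (1) * t5 + (-2) * t7 - ((0) * c 0 + (-1) * c 1 + (-1) * c 2 + (-2) * c 3 + (1) * c 4), ?_⟩
      simp only [Fin.zero_eta, Fin.mk_one, Fin.reduceFinMk, Fin.isValue, Nat.cast_ofNat]
      linear_combination (2) * h0 + (2) * h1 + (1) * h3 + (1) * h5 + (-2) * h7

end Fermat.Agent.Lib.Kummer
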