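import Fermat.Agent.Lib.Kummer.Cert

set_option autoImplicit false
set_option linter.unusedSimpArgs false

open NumberField Polynomial

namespace Fermat.Agent.Lib.Kummer

theorem kummerLemma_thirteen (K : Type) [Field K] [NumberField K] [IsCyclotomicExtension {13} ℚ K] :
    KummerLemma 13 K := by
  have : Fact (Nat.Prime 13) := ⟨by norm_num⟩
  have hζ := IsCyclotomicExtension.zeta_spec 13 ℚ K
  obtain ⟨l, hl⟩ : ∃ l, l = hζ.toInteger - 1 := ⟨_, rfl⟩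
  have hzl : hζ.toInteger = l + 1 := by rw [hl]; ring
  refine kummerLemma_of_matrix hζ (by norm_num) (n := 6) (N := 11) (by norm_num) (by norm_num)
    ![zetaUnit hζ, cycUnit hζ 2 (by norm_num), cycUnit hζ 3 (by norm_num), cycUnit hζ 4 (by norm_num), cycUnit hζ 5 (by norm_num), cycUnit hζ 6 (by norm_num)]
    ![![1, -1, 1, -1, 1, -1, 1, -1, 1, -1, 1],
      ![-6, 3, 5, 4, -2, 1, 6, -3, -5, -4, 2],
      ![1, 4, 0, 3, -3, 2, -1, -4, 0, -3, 3],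
      ![-5, 3, -2, -2, 1, 1, -2, 5, 4, -4, 4],
      ![2, 0, -1, 6, 0, 2, -2, 4, -6, 3, 5],
      ![-4, -5, 3, -5, -4, 1, 6, -6, 6, -6, 6]] ?_ ?_
  · intro j
    fin_cases j
    · refine toAdd_dlog_of_cert hζ _ 1 _ ((-1)) (0)
        (by simp only [Fin.zero_eta, Fin.isValue, Matrix.cons_val_zero, coe_zetaUnit, der_zeta, map_one]) ?_
      simp only [Fin.zero_eta, Fin.mk_one, Fin.reduceFinMk, Fin.isValue, Matrix.cons_val, coe_zetaUnit, coe_cycUnit, ← hl, hzl,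
        Fin.sum_univ_succ, Finset.sum_range_succ, Finset.sum_range_zero, Fin.sum_univ_zero, Matrix.cons_val_zero, Matrix.cons_val_succ]
      norm_num
      ring
    · refine toAdd_dlog_of_cert hζ _ _ _ ((-2)) (1 + (-1) * l ^ 2 + (-1) * l ^ 3 + (-1) * l ^ 6 + 1 * l ^ 8 + 1 * l ^ 9) (der_geom_sum hζ 2) ?_
      simp only [Fin.zero_eta, Fin.mk_one, Fin.reduceFinMk, Fin.isValue, Matrix.cons_val, coe_zetaUnit, coe_cycUnit, ← hl, hzl,
        Fin.sum_univ_succ, Finset.sum_range_succ, Finset.sum_range_zero, Fin.sum_univ_zero, Matrix.cons_val_zero, Matrix.cons_val_succ]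
      norm_num
      ring
    · refine toAdd_dlog_of_cert hζ _ _ _ ((-6) + (-3) * l) ((-1) * l + (-1) * l ^ 2 + (-1) * l ^ 3 + 1 * l ^ 7 + 1 * l ^ 8 + 1 * l ^ 9) (der_geom_sum hζ 3) ?_
      simp only [Fin.zero_eta, Fin.mk_one, Fin.reduceFinMk, Fin.isValue, Matrix.cons_val, coe_zetaUnit, coe_cycUnit, ← hl, hzl,
        Fin.sum_univ_succ, Finset.sum_range_succ, Finset.sum_range_zero, Fin.sum_univ_zero, Matrix.cons_val_zero, Matrix.cons_val_succ]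
      norm_num
      ring
    · refine toAdd_dlog_of_cert hζ _ _ _ ((-12) + (-12) * l + (-4) * l ^ 2) (2 + 2 * l + 1 * l ^ 2 + 1 * l ^ 3 + 1 * l ^ 4 + (-1) * l ^ 7 + (-3) * l ^ 8 + (-2) * l ^ 9 + (-1) * l ^ 10) (der_geom_sum hζ 4) ?_
      simp only [Fin.zero_eta, Fin.mk_one, Fin.reduceFinMk, Fin.isValue, Matrix.cons_val, coe_zetaUnit, coe_cycUnit, ← hl, hzl,
        Fin.sum_univ_succ, Finset.sum_range_succ, Finset.sum_range_zero, Fin.sum_univ_zero, Matrix.cons_val_zero, Matrix.cons_val_succ]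
      norm_num
      ring
    · refine toAdd_dlog_of_cert hζ _ _ _ ((-54) + (-59) * l + (-28) * l ^ 2 + (-5) * l ^ 3) ((-2) * l ^ 3 + (-4) * l ^ 4 + (-5) * l ^ 5 + (-3) * l ^ 6 + (-2) * l ^ 7 + 1 * l ^ 9 + (-1) * l ^ 10) (der_geom_sum hζ 5) ?_
      simp only [Fin.zero_eta, Fin.mk_one, Fin.reduceFinMk, Fin.isValue, Matrix.cons_val, coe_zetaUnit, coe_cycUnit, ← hl, hzl,
        Fin.sum_univ_succ, Finset.sum_range_succ, Finset.sum_range_zero, Fin.sum_univ_zero, Matrix.cons_val_zero, Matrix.cons_val_succ]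
      norm_num
      ring
    · refine toAdd_dlog_of_cert hζ _ _ _ ((-30) + (-60) * l + (-60) * l ^ 2 + (-30) * l ^ 3 + (-6) * l ^ 4) (3 + 10 * l + 14 * l ^ 2 + 13 * l ^ 3 + 11 * l ^ 4 + 11 * l ^ 5 + 7 * l ^ 6 + 1 * l ^ 7 + (-4) * l ^ 8 + (-2) * l ^ 9 + (-1) * l ^ 10) (der_geom_sum hζ 6) ?_
      simp only [Fin.zero_eta, Fin.mk_one, Fin.reduceFinMk, Fin.isValue, Matrix.cons_val, coe_zetaUnit, coe_cycUnit, ← hl, hzl,
        Fin.sum_univ_succ, Finset.sum_range_succ, Finset.sum_range_zero, Fin.sum_univ_zero, Matrix.cons_val_zero, Matrix.cons_val_succ]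
      norm_num
      ring
  · intro c h
    obtain ⟨t0, h0⟩ := h 0
    obtain ⟨t1, h1⟩ := h 1
    obtain ⟨t3, h3⟩ := h 3
    obtain ⟨t5, h5⟩ := h 5
    obtain ⟨t7, h7⟩ := h 7
    obtain ⟨t9, h9⟩ := h 9
    simp only [Fin.sum_univ_six, Matrix.cons_val_zero, Matrix.cons_val_succ, Fin.isValue, Matrix.cons_val] at h0 h1 h3 h5 h7 h9
    intro j
    fin_cases j
    · refine ⟨(1) * t0 + (3) * t1 + (3) * t3 + (-4) * t5 + (-6) * t7 + (4) * t9 - ((0) * c 0 + (1) * c 1 + (2) * c 2 + (-4) * c 3 + (0) * c 4 + (-2) * c 5), ?_⟩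
      simp only [Fin.zero_eta, Fin.mk_one, Fin.reduceFinMk, Fin.isValue, Nat.cast_ofNat]
      linear_combination (1) * h0 + (3) * h1 + (3) * h3 + (-4) * h5 + (-6) * h7 + (4) * h9
    · refine ⟨(-3) * t0 + (2) * t1 + (-3) * t3 + (-6) * t5 + (-2) * t7 + (6) * t9 - ((0) * c 0 + (-1) * c 1 + (-2) * c 2 + (-1) * c 3 + (-2) * c 4 + (-1) * c 5), ?_⟩
      simp only [Fin.zero_eta, Fin.mk_one, Fin.reduceFinMk, Fin.isValue, Nat.cast_ofNat]
      linear_combination (-3) * h0 + (2) * h1 + (-3) * h3 + (-6) * h5 + (-2) * h7 + (6) * h9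
    · refine ⟨(-1) * t0 + (-1) * t1 + (2) * t3 + (4) * t5 + (0) * t7 + (-6) * t9 - ((0) * c 0 + (3) * c 1 + (2) * c 2 + (2) * c 3 + (0) * c 4 + (3) * c 5), ?_⟩
      simp only [Fin.zero_eta, Fin.mk_one, Fin.reduceFinMk, Fin.isValue, Nat.cast_ofNat]
      linear_combination (-1) * h0 + (-1) * h1 + (2) * h3 + (4) * h5 + (0) * h7 + (-6) * h9
    · refine ⟨(-6) * t0 + (-2) * t1 + (-4) * t3 + (-4) * t5 + (6) * t7 + (-2) * t9 - ((0) * c 0 + (0) * c 1 + (-4) * c 2 + (5) * c 3 + (-2) * c 4 + (2) * c 5), ?_⟩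
      simp only [Fin.zero_eta, Fin.mk_one, Fin.reduceFinMk, Fin.isValue, Nat.cast_ofNat]
      linear_combination (-6) * h0 + (-2) * h1 + (-4) * h3 + (-4) * h5 + (6) * h7 + (-2) * h9
    · refine ⟨(4) * t0 + (2) * t1 + (2) * t3 + (-6) * t5 + (1) * t7 + (5) * t9 - ((0) * c 0 + (-3) * c 1 + (-1) * c 2 + (-3) * c 3 + (2) * c 4 + (-6) * c 5), ?_⟩
      simp only [Fin.zero_eta, Fin.mk_one, Fin.reduceFinMk, Fin.isValue, Nat.cast_ofNat]
      linear_combination (4) * h0 + (2) * h1 + (2) * h3 + (-6) * h5 + (1) * h7 + (5) * h9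
    · refine ⟨(4) * t0 + (1) * t1 + (2) * t3 + (-2) * t5 + (1) * t7 + (2) * t9 - ((0) * c 0 + (-2) * c 1 + (0) * c 2 + (-2) * c 3 + (2) * c 4 + (-4) * c 5), ?_⟩
      simp only [Fin.zero_eta, Fin.mk_one, Fin.reduceFinMk, Fin.isValue, Nat.cast_ofNat]
      linear_combination (4) * h0 + (1) * h1 + (2) * h3 + (-2) * h5 + (1) * h7 + (2) * h9

end Fermat.Agent.Lib.Kummer
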