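import Fermat.Agent.Lib.Kummer.Cert

set_option autoImplicit false
set_option linter.unusedSimpArgs false

open NumberField Polynomial

namespace Fermat.Agent.Lib.Kummer

theorem kummerLemma_five (K : Type) [Field K] [NumberField K] [IsCyclotomicExtension {5} ℚ K] :
    KummerLemma 5 K := by
  have : Fact (Nat.Prime 5) := ⟨by norm_num⟩
  have hζ := IsCyclotomicExtension.zeta_spec 5 ℚ K
  obtain ⟨l, hl⟩ : ∃ l, l = hζ.toInteger - 1 := ⟨_, rfl⟩
  have hzl : hζ.toInteger = l + 1 := by rw [hl]; ring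
  refine kummerLemma_of_matrix hζ (by norm_num) (n := 2) (N := 3) (by norm_num) (by norm_num)
    ![zetaUnit hζ, cycUnit hζ 2 (by norm_num)]
    ![![1, -1, 1],
      ![-2, 1, 2]] ?_ ?_
  · intro j
    fin_cases j
    · refine toAdd_dlog_of_cert hζ _ 1 _ ((-1)) (0)
        (by simp only [Fin.zero_eta, Fin.isValue, Matrix.cons_val_zero, coe_zetaUnit, der_zeta, map_one]) ?_
      simp only [Fin.zero_eta, Fin.mk_one, Fin.reduceFinMk, Fin.isValue, Matrix.cons_val, coe_zetaUnit, coe_cycUnit, ← hl, hzl,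
        Fin.sum_univ_succ, Finset.sum_range_succ, Finset.sum_range_zero, Fin.sum_univ_zero, Matrix.cons_val_zero, Matrix.cons_val_succ]
      norm_num
      ring
    · refine toAdd_dlog_of_cert hζ _ _ _ ((-2)) (1 + (-1) * l ^ 2) (der_geom_sum hζ 2) ?_
      simp only [Fin.zero_eta, Fin.mk_one, Fin.reduceFinMk, Fin.isValue, Matrix.cons_val, coe_zetaUnit, coe_cycUnit, ← hl, hzl,
        Fin.sum_univ_succ, Finset.sum_range_succ, Finset.sum_range_zero, Fin.sum_univ_zero, Matrix.cons_val_zero, Matrix.cons_val_succ]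
      norm_num
      ring
  · intro c h
    obtain ⟨t0, h0⟩ := h 0
    obtain ⟨t1, h1⟩ := h 1
    simp only [Fin.sum_univ_two, Matrix.cons_val_zero, Matrix.cons_val_succ, Fin.isValue, Matrix.cons_val] at h0 h1
    intro j
    fin_cases j
    · refine ⟨(-1) * t0 + (-2) * t1 - ((0) * c 0 + (0) * c 1), ?_⟩
      simp only [Fin.zero_eta, Fin.mk_one, Fin.reduceFinMk, Fin.isValue, Nat.cast_ofNat]
      linear_combination (-1) * h0 + (-2) * h1
    · refine ⟨(-1) * t0 + (-1) * t1 - ((0) * c 0 + (0) * c 1), ?_⟩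
      simp only [Fin.zero_eta, Fin.mk_one, Fin.reduceFinMk, Fin.isValue, Nat.cast_ofNat]
      linear_combination (-1) * h0 + (-1) * h1

end Fermat.Agent.Lib.Kummer
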