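import Fermat.Agent.Lib.Kummer.Cert

set_option autoImplicit false
set_option linter.unusedSimpArgs false

open NumberField Polynomial

namespace Fermat.Agent.Lib.Kummer

theorem kummerLemma_seven (K : Type) [Field K] [NumberField K] [IsCyclotomicExtension {7} ℚ K] :
    KummerLemma 7 K := by
  have : Fact (Nat.Prime 7) := ⟨by norm_num⟩
  have hζ := IsCyclotomicExtension.zeta_spec 7 ℚ K
  obtain ⟨l, hl⟩ : ∃ l, l = hζ.toInteger - 1 := ⟨_, rfl⟩
  have hzl : hζ.toInteger = l + 1 := by rw [hl]; ring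
  refine kummerLemma_of_matrix hζ (by norm_num) (n := 3) (N := 5) (by norm_num) (by norm_num)
    ![zetaUnit hζ, cycUnit hζ 2 (by norm_num), cycUnit hζ 3 (by norm_num)]
    ![![1, -1, 1, -1, 1],
      ![-3, -2, 1, 3, 2],
      ![1, 2, 0, -3, 3]] ?_ ?_
  · intro j
    fin_cases j
    · refine toAdd_dlog_of_cert hζ _ 1 _ ((-1)) (0)
        (by simp only [Fin.zero_eta, Fin.isValue, Matrix.cons_val_zero, coe_zetaUnit, der_zeta, map_one]) ?_
      simp only [Fin.zero_eta, Fin.mk_one, Fin.reduceFinMk, Fin.isValue, Matrix.cons_val, coe_zetaUnit, coe_cycUnit, ← hl, hzl,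
        Fin.sum_univ_succ, Finset.sum_range_succ, Finset.sum_range_zero, Fin.sum_univ_zero, Matrix.cons_val_zero, Matrix.cons_val_succ]
      norm_num
      ring
    · refine toAdd_dlog_of_cert hζ _ _ _ ((-2)) (1 + 1 * l + (-1) * l ^ 3 + (-1) * l ^ 4) (der_geom_sum hζ 2) ?_
      simp only [Fin.zero_eta, Fin.mk_one, Fin.reduceFinMk, Fin.isValue, Matrix.cons_val, coe_zetaUnit, coe_cycUnit, ← hl, hzl,
        Fin.sum_univ_succ, Finset.sum_range_succ, Finset.sum_range_zero, Fin.sum_univ_zero, Matrix.cons_val_zero, Matrix.cons_val_succ]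
      norm_num
      ring
    · refine toAdd_dlog_of_cert hζ _ _ _ ((-6) + (-3) * l) ((-1) * l + (-1) * l ^ 2 + 1 * l ^ 3) (der_geom_sum hζ 3) ?_
      simp only [Fin.zero_eta, Fin.mk_one, Fin.reduceFinMk, Fin.isValue, Matrix.cons_val, coe_zetaUnit, coe_cycUnit, ← hl, hzl,
        Fin.sum_univ_succ, Finset.sum_range_succ, Finset.sum_range_zero, Fin.sum_univ_zero, Matrix.cons_val_zero, Matrix.cons_val_succ]
      norm_num
      ring
  · intro c h
    obtain ⟨t0, h0⟩ := h 0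
    obtain ⟨t1, h1⟩ := h 1
    obtain ⟨t3, h3⟩ := h 3
    simp only [Fin.sum_univ_three, Matrix.cons_val_zero, Matrix.cons_val_succ, Fin.isValue, Matrix.cons_val] at h0 h1 h3
    intro j
    fin_cases j
    · refine ⟨(0) * t0 + (-2) * t1 + (1) * t3 - ((0) * c 0 + (1) * c 1 + (-1) * c 2), ?_⟩
      simp only [Fin.zero_eta, Fin.mk_one, Fin.reduceFinMk, Fin.isValue, Nat.cast_ofNat]
      linear_combination (0) * h0 + (-2) * h1 + (1) * h3
    · refine ⟨(3) * t0 + (-3) * t1 + (-1) * t3 - ((1) * c 0 + (-1) * c 1 + (0) * c 2), ?_⟩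
      simp only [Fin.zero_eta, Fin.mk_one, Fin.reduceFinMk, Fin.isValue, Nat.cast_ofNat]
      linear_combination (3) * h0 + (-3) * h1 + (-1) * h3
    · refine ⟨(3) * t0 + (0) * t1 + (3) * t3 - ((0) * c 0 + (0) * c 1 + (-1) * c 2), ?_⟩
      simp only [Fin.zero_eta, Fin.mk_one, Fin.reduceFinMk, Fin.isValue, Nat.cast_ofNat]
      linear_combination (3) * h0 + (0) * h1 + (3) * h3

end Fermat.Agent.Lib.Kummer
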