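import Fermat.Agent.Lib.Kummer.PIDBasic

set_option autoImplicit false

namespace Fermat.Agent.Lib.Kummer

open NumberField Ideal Module InfinitePlace Nat Real IsCyclotomicExtension.Rat Polynomial
open RingOfIntegers NumberField.Ideal

theorem exists_principal_prime (m q : ℕ) [hq : Fact q.Prime] [NeZero m] (K : Type) [Field K]
    [NumberField K] [hK : IsCyclotomicExtension {m} ℚ K] (Q : ℤ[X])
    (hirr : Irreducible (Q.map (Int.castRingHom (ZMod q))))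
    (hmonic : (Q.map (Int.castRingHom (ZMod q))).Monic)
    (hdvd : Q.map (Int.castRingHom (ZMod q)) ∣ cyclotomic m (ZMod q))
    (α : 𝓞 K) (h1 : α ∣ (q : 𝓞 K))
    (h2 : α ∣ aeval (IsCyclotomicExtension.zeta_spec m ℚ K).toInteger Q)
    (h3 : α ∈ span {(q : 𝓞 K), aeval (IsCyclotomicExtension.zeta_spec m ℚ K).toInteger Q}) :
    ∃ P ∈ primesOver (span {(q : ℤ)}) (𝓞 K), Submodule.IsPrincipal P := by
  set ζ := (IsCyclotomicExtension.zeta_spec m ℚ K).toInteger with hζ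
  have h₁ : ¬ q ∣ exponent ζ := by
    rw [exponent_eq_one_iff.mpr <| adjoin_singleton_eq_top (IsCyclotomicExtension.zeta_spec m ℚ K)]
    exact hq.out.not_dvd_one
  have hmin : map (Int.castRingHom (ZMod q)) (minpoly ℤ ζ) = cyclotomic m (ZMod q) := by
    rw [← map_cyclotomic_int, cyclotomic_eq_minpoly (IsCyclotomicExtension.zeta_spec m ℚ K) (NeZero.pos _),
      ← (IsCyclotomicExtension.zeta_spec m ℚ K).coe_toInteger, ← RingOfIntegers.minpoly_coe ζ]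
    rfl
  have hQ : Q.map (Int.castRingHom (ZMod q)) ∈ monicFactorsMod ζ q := by
    rw [Multiset.mem_toFinset, Polynomial.mem_normalizedFactors_iff
      (map_monic_ne_zero (minpoly.monic ζ.isIntegral))]
    exact ⟨hirr, hmonic, hmin ▸ hdvd⟩
  refine ⟨_, ((primesOverSpanEquivMonicFactorsMod h₁).symm ⟨_, hQ⟩).2, ?_⟩
  rw [primesOverSpanEquivMonicFactorsMod_symm_apply_eq_span h₁ hQ]
  refine ⟨α, le_antisymm ?_ ?_⟩
  · rw [Ideal.span_le]
    rintro x (rfl | rfl)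
    · exact Ideal.mem_span_singleton.mpr h1
    · exact Ideal.mem_span_singleton.mpr h2
  · rw [Ideal.submodule_span_eq, Ideal.span_singleton_le_iff_mem]
    exact h3

theorem exists_principal_prime_linear (m q : ℕ) [hq : Fact q.Prime] [hm : Fact m.Prime]
    (K : Type) [Field K]
    [NumberField K] [hK : IsCyclotomicExtension {m} ℚ K] (r : ℤ)
    (hr : ∑ i ∈ Finset.range m, (r : ZMod q) ^ i = 0)
    (α β γ μ ν : 𝓞 K) (h1 : (q : 𝓞 K) = α * β)
    (h2 : (IsCyclotomicExtension.zeta_spec m ℚ K).toInteger - (r : 𝓞 K) = α * γ)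
    (h3 : μ * (q : 𝓞 K) + ν * ((IsCyclotomicExtension.zeta_spec m ℚ K).toInteger - (r : 𝓞 K)) = α) :
    ∃ P ∈ primesOver (span {(q : ℤ)}) (𝓞 K), Submodule.IsPrincipal P := by
  have hmap : (X - C r : ℤ[X]).map (Int.castRingHom (ZMod q)) = X - C (r : ZMod q) := by
    simp
  have hev : aeval (IsCyclotomicExtension.zeta_spec m ℚ K).toInteger (X - C r : ℤ[X]) =
      (IsCyclotomicExtension.zeta_spec m ℚ K).toInteger - (r : 𝓞 K) := by
    simp
  refine exists_principal_prime m q K (X - C r) ?_ ?_ ?_ α ⟨β, h1⟩ ?_ ?_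
  · rw [hmap]; exact irreducible_X_sub_C _
  · rw [hmap]; exact monic_X_sub_C _
  · rw [hmap, dvd_iff_isRoot, cyclotomic_prime, IsRoot.def, eval_finsetSum]
    simpa using hr
  · rw [hev]; exact ⟨γ, h2⟩
  · rw [hev]; exact Ideal.mem_span_pair.mpr ⟨μ, ν, h3⟩

theorem zeta_sum_eq_zero (m : ℕ) [hm : Fact m.Prime] (K : Type) [Field K]
    [NumberField K] [hK : IsCyclotomicExtension {m} ℚ K] :
    ∑ i ∈ Finset.range m, (IsCyclotomicExtension.zeta_spec m ℚ K).toInteger ^ i = 0 :=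
  (IsCyclotomicExtension.zeta_spec m ℚ K).toInteger_isPrimitiveRoot.geom_sum_eq_zero hm.out.one_lt

theorem four_div_pi_le : 4 / π ≤ 4 / 3.14 := by
  have := Real.pi_gt_d2
  gcongr

theorem prime_pow_two_factors {q f n r₁ r₂ : ℕ} (hq : q.Prime) (h : q ^ f = n) (hr₁ : r₁.Prime)
    (hr₂ : r₂.Prime) (h₁ : r₁ ∣ n) (h₂ : r₂ ∣ n) (hne : r₁ ≠ r₂) : False := by
  subst h
  have e₁ := (Nat.prime_dvd_prime_iff_eq hr₁ hq).mp (hr₁.dvd_of_dvd_pow h₁)
  have e₂ := (Nat.prime_dvd_prime_iff_eq hr₂ hq).mp (hr₂.dvd_of_dvd_pow h₂)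
  exact hne (e₁.trans e₂.symm)

theorem prime_pow_eq {q f n r : ℕ} (hq : q.Prime) (h : q ^ f = n) (hr : r.Prime)
    (h₁ : r ∣ n) : q = r := by
  subst h
  exact ((Nat.prime_dvd_prime_iff_eq hr hq).mp (hr.dvd_of_dvd_pow h₁)).symm

theorem minkowski_seven (K : Type) [Field K] [NumberField K] [IsCyclotomicExtension {7} ℚ K] :
    ⌊(4 / π) ^ nrComplexPlaces K *
      ((finrank ℚ K)! / (finrank ℚ K) ^ (finrank ℚ K) * √|discr K|)⌋₊ ≤ 7 := by
  have : Fact (Nat.Prime 7) := ⟨by norm_num⟩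
  apply Nat.floor_le_of_le
  rw [discr_prime 7 K, IsCyclotomicExtension.finrank (n := 7) K
    (cyclotomic.irreducible_rat (by simp)), nrComplexPlaces_eq_totient_div_two 7,
    totient_prime (by norm_num)]
  have hs : √|((((-1) ^ ((7 - 1) / 2) * ((7 : ℕ) : ℤ) ^ (7 - 2) : ℤ)) : ℝ)| ≤ 130 := by
    rw [Real.sqrt_le_iff]
    norm_num
  have hf : (((7 - 1)! : ℕ) : ℝ) = 720 := by
    norm_num [Nat.factorial]
  have hpi := four_div_pi_le
  have hpos : 0 ≤ 4 / π := by positivity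
  calc (4 / π) ^ ((7 - 1) / 2) * (((7 - 1)! : ℕ) / ((7 - 1 : ℕ) : ℝ) ^ (7 - 1) *
        √|((((-1) ^ ((7 - 1) / 2) * ((7 : ℕ) : ℤ) ^ (7 - 2) : ℤ)) : ℝ)|)
      ≤ (4 / 3.14) ^ ((7 - 1) / 2) * (((7 - 1)! : ℕ) / ((7 - 1 : ℕ) : ℝ) ^ (7 - 1) * 130) := by
        gcongr
    _ ≤ ((7 : ℕ) : ℝ) := by
        rw [hf]
        norm_num

theorem pid_seven (K : Type) [Field K] [NumberField K] [IsCyclotomicExtension {7} ℚ K] :
    IsPrincipalIdealRing (𝓞 K) := by
  have : Fact (Nat.Prime 7) := ⟨by norm_num⟩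
  refine pid_of_bound 7 K 7 (minkowski_seven K) ?_
  intro q f hq _ hf hle hmod
  exfalso
  have h2 : 2 ≤ q ^ f := le_trans hq.two_le (Nat.le_self_pow hf.ne' q)
  omega

theorem minkowski_eleven (K : Type) [Field K] [NumberField K] [IsCyclotomicExtension {11} ℚ K] :
    ⌊(4 / π) ^ nrComplexPlaces K *
      ((finrank ℚ K)! / (finrank ℚ K) ^ (finrank ℚ K) * √|discr K|)⌋₊ ≤ 66 := by
  have : Fact (Nat.Prime 11) := ⟨by norm_num⟩
  apply Nat.floor_le_of_le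
  rw [discr_prime 11 K, IsCyclotomicExtension.finrank (n := 11) K
    (cyclotomic.irreducible_rat (by simp)), nrComplexPlaces_eq_totient_div_two 11,
    totient_prime (by norm_num)]
  have hs : √|((((-1) ^ ((11 - 1) / 2) * ((11 : ℕ) : ℤ) ^ (11 - 2) : ℤ)) : ℝ)| ≤ 48559 := by
    rw [Real.sqrt_le_iff]
    norm_num
  have hf : (((11 - 1)! : ℕ) : ℝ) = 3628800 := by
    norm_num [Nat.factorial]
  have hpi := four_div_pi_le
  have hpos : 0 ≤ 4 / π := by positivity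
  calc (4 / π) ^ ((11 - 1) / 2) * (((11 - 1)! : ℕ) / ((11 - 1 : ℕ) : ℝ) ^ (11 - 1) *
        √|((((-1) ^ ((11 - 1) / 2) * ((11 : ℕ) : ℤ) ^ (11 - 2) : ℤ)) : ℝ)|)
      ≤ (4 / 3.14) ^ ((11 - 1) / 2) * (((11 - 1)! : ℕ) / ((11 - 1 : ℕ) : ℝ) ^ (11 - 1) * 48559) := by
        gcongr
    _ ≤ ((66 : ℕ) : ℝ) := by
        rw [hf]
        norm_num

theorem root_11_23 : ∑ i ∈ Finset.range 11, ((13 : ℤ) : ZMod 23) ^ i = 0 := by decide

theorem principal_11_23 (K : Type) [Field K] [NumberField K] [IsCyclotomicExtension {11} ℚ K] :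
    ∃ P ∈ primesOver (span {((23 : ℕ) : ℤ)}) (𝓞 K), Submodule.IsPrincipal P := by
  have : Fact (Nat.Prime 11) := ⟨by norm_num⟩
  have : Fact (Nat.Prime 23) := ⟨by norm_num⟩
  have hs := zeta_sum_eq_zero 11 K
  simp only [Finset.sum_range_succ, Finset.sum_range_zero, zero_add, pow_zero, pow_one] at hs
  set ζ := (IsCyclotomicExtension.zeta_spec 11 ℚ K).toInteger with hζ
  refine exists_principal_prime_linear 11 23 K 13 root_11_23
    (1 - ζ + ζ ^ 3)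
    (8 - 2 * ζ - ζ ^ 2 - 8 * ζ ^ 3 - 5 * ζ ^ 4 - 3 * ζ ^ 5 + 6 * ζ ^ 6 + 12 * ζ ^ 7 + 16 * ζ ^ 8 + 11 * ζ ^ 9)
    (-5 + ζ + 4 * ζ ^ 3 + 2 * ζ ^ 4 + ζ ^ 5 - 4 * ζ ^ 6 - 7 * ζ ^ 7 - 9 * ζ ^ 8 - 6 * ζ ^ 9)
    (95) (168 + 13 * ζ + ζ ^ 2) ?_ ?_ ?_
  · push_cast
    linear_combination (-(-15 + 5 * ζ + 11 * ζ ^ 2)) * hs
  · push_cast
    linear_combination (-(8 - 3 * ζ - 6 * ζ ^ 2)) * hs
  · push_cast
    ring

theorem pid_eleven (K : Type) [Field K] [NumberField K] [IsCyclotomicExtension {11} ℚ K] :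
    IsPrincipalIdealRing (𝓞 K) := by
  have : Fact (Nat.Prime 11) := ⟨by norm_num⟩
  refine pid_of_bound 11 K 66 (minkowski_eleven K) ?_
  intro q f hq _ hf hle hmod
  have h2 : 2 ≤ q ^ f := le_trans hq.two_le (Nat.le_self_pow hf.ne' q)
  obtain ⟨k, hk⟩ : ∃ k, q ^ f = 11 * k + 1 := ⟨q ^ f / 11, by omega⟩
  have hk1 : 1 ≤ k := by omega
  have hk2 : k ≤ 5 := by omega
  interval_cases k
  · exact (prime_pow_two_factors hq hk (r₁ := 2) (r₂ := 3) (by norm_num) (by norm_num) (by norm_num) (by norm_num) (by norm_num)).elim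
  · obtain rfl := prime_pow_eq hq hk (r := 23) (by norm_num) (by norm_num)
    exact principal_11_23 K
  · exact (prime_pow_two_factors hq hk (r₁ := 2) (r₂ := 17) (by norm_num) (by norm_num) (by norm_num) (by norm_num) (by norm_num)).elim
  · exact (prime_pow_two_factors hq hk (r₁ := 3) (r₂ := 5) (by norm_num) (by norm_num) (by norm_num) (by norm_num) (by norm_num)).elim
  · exact (prime_pow_two_factors hq hk (r₁ := 2) (r₂ := 7) (by norm_num) (by norm_num) (by norm_num) (by norm_num) (by norm_num)).elim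

theorem minkowski_thirteen (K : Type) [Field K] [NumberField K] [IsCyclotomicExtension {13} ℚ K] :
    ⌊(4 / π) ^ nrComplexPlaces K *
      ((finrank ℚ K)! / (finrank ℚ K) ^ (finrank ℚ K) * √|discr K|)⌋₊ ≤ 312 := by
  have : Fact (Nat.Prime 13) := ⟨by norm_num⟩
  apply Nat.floor_le_of_le
  rw [discr_prime 13 K, IsCyclotomicExtension.finrank (n := 13) K
    (cyclotomic.irreducible_rat (by simp)), nrComplexPlaces_eq_totient_div_two 13,
    totient_prime (by norm_num)]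
  have hs : √|((((-1) ^ ((13 - 1) / 2) * ((13 : ℕ) : ℤ) ^ (13 - 2) : ℤ)) : ℝ)| ≤ 1338717 := by
    rw [Real.sqrt_le_iff]
    norm_num
  have hf : (((13 - 1)! : ℕ) : ℝ) = 479001600 := by
    norm_num [Nat.factorial]
  have hpi := four_div_pi_le
  have hpos : 0 ≤ 4 / π := by positivity
  calc (4 / π) ^ ((13 - 1) / 2) * (((13 - 1)! : ℕ) / ((13 - 1 : ℕ) : ℝ) ^ (13 - 1) *
        √|((((-1) ^ ((13 - 1) / 2) * ((13 : ℕ) : ℤ) ^ (13 - 2) : ℤ)) : ℝ)|)
      ≤ (4 / 3.14) ^ ((13 - 1) / 2) * (((13 - 1)! : ℕ) / ((13 - 1 : ℕ) : ℝ) ^ (13 - 1) * 1338717) := by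
        gcongr
    _ ≤ ((312 : ℕ) : ℝ) := by
        rw [hf]
        norm_num

theorem root_13_53 : ∑ i ∈ Finset.range 13, ((16 : ℤ) : ZMod 53) ^ i = 0 := by decide

theorem principal_13_53 (K : Type) [Field K] [NumberField K] [IsCyclotomicExtension {13} ℚ K] :
    ∃ P ∈ primesOver (span {((53 : ℕ) : ℤ)}) (𝓞 K), Submodule.IsPrincipal P := by
  have : Fact (Nat.Prime 13) := ⟨by norm_num⟩
  have : Fact (Nat.Prime 53) := ⟨by norm_num⟩
  have hs := zeta_sum_eq_zero 13 K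
  simp only [Finset.sum_range_succ, Finset.sum_range_zero, zero_add, pow_zero, pow_one] at hs
  set ζ := (IsCyclotomicExtension.zeta_spec 13 ℚ K).toInteger with hζ
  refine exists_principal_prime_linear 13 53 K 16 root_13_53
    (1 - ζ + ζ ^ 3)
    (25 + 10 * ζ + 19 * ζ ^ 2 + 3 * ζ ^ 3 + 2 * ζ ^ 4 - 8 * ζ ^ 5 - 2 * ζ ^ 6 + 5 * ζ ^ 7 + 22 * ζ ^ 8 + 33 * ζ ^ 9 + 37 * ζ ^ 10 + 24 * ζ ^ 11)
    (-8 - 3 * ζ - 6 * ζ ^ 2 - ζ ^ 3 - ζ ^ 4 + 2 * ζ ^ 5 - 2 * ζ ^ 7 - 7 * ζ ^ 8 - 10 * ζ ^ 9 - 11 * ζ ^ 10 - 7 * ζ ^ 11)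
    (77) (255 + 16 * ζ + ζ ^ 2) ?_ ?_ ?_
  · push_cast
    linear_combination (-(-28 + 13 * ζ + 24 * ζ ^ 2)) * hs
  · push_cast
    linear_combination (-(8 - 4 * ζ - 7 * ζ ^ 2)) * hs
  · push_cast
    ring

theorem root_13_79 : ∑ i ∈ Finset.range 13, ((62 : ℤ) : ZMod 79) ^ i = 0 := by decide

theorem principal_13_79 (K : Type) [Field K] [NumberField K] [IsCyclotomicExtension {13} ℚ K] :
    ∃ P ∈ primesOver (span {((79 : ℕ) : ℤ)}) (𝓞 K), Submodule.IsPrincipal P := by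
  have : Fact (Nat.Prime 13) := ⟨by norm_num⟩
  have : Fact (Nat.Prime 79) := ⟨by norm_num⟩
  have hs := zeta_sum_eq_zero 13 K
  simp only [Finset.sum_range_succ, Finset.sum_range_zero, zero_add, pow_zero, pow_one] at hs
  set ζ := (IsCyclotomicExtension.zeta_spec 13 ℚ K).toInteger with hζ
  refine exists_principal_prime_linear 13 79 K 62 root_13_79
    (1 - ζ - ζ ^ 4)
    (62 + 63 * ζ + 49 * ζ ^ 2 + 8 * ζ ^ 3 + 29 * ζ ^ 4 + 51 * ζ ^ 5 + 59 * ζ ^ 6 + 26 * ζ ^ 7 + 14 * ζ ^ 8 + 24 * ζ ^ 9 + 42 * ζ ^ 10 + 27 * ζ ^ 11)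
    (-49 - 49 * ζ - 38 * ζ ^ 2 - 6 * ζ ^ 3 - 23 * ζ ^ 4 - 40 * ζ ^ 5 - 46 * ζ ^ 6 - 20 * ζ ^ 7 - 11 * ζ ^ 8 - 19 * ζ ^ 9 - 33 * ζ ^ 10 - 21 * ζ ^ 11)
    (-187043) (-238329 - 3844 * ζ - 62 * ζ ^ 2 - ζ ^ 3) ?_ ?_ ?_
  · push_cast
    linear_combination (-(-17 + 18 * ζ - 15 * ζ ^ 2 - 27 * ζ ^ 3)) * hs
  · push_cast
    linear_combination (-(13 - 14 * ζ + 12 * ζ ^ 2 + 21 * ζ ^ 3)) * hs
  · push_cast
    ring

theorem root_13_131 : ∑ i ∈ Finset.range 13, ((80 : ℤ) : ZMod 131) ^ i = 0 := by decide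

theorem principal_13_131 (K : Type) [Field K] [NumberField K] [IsCyclotomicExtension {13} ℚ K] :
    ∃ P ∈ primesOver (span {((131 : ℕ) : ℤ)}) (𝓞 K), Submodule.IsPrincipal P := by
  have : Fact (Nat.Prime 13) := ⟨by norm_num⟩
  have : Fact (Nat.Prime 131) := ⟨by norm_num⟩
  have hs := zeta_sum_eq_zero 13 K
  simp only [Finset.sum_range_succ, Finset.sum_range_zero, zero_add, pow_zero, pow_one] at hs
  set ζ := (IsCyclotomicExtension.zeta_spec 13 ℚ K).toInteger with hζ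
  refine exists_principal_prime_linear 13 131 K 80 root_13_131
    (1 - ζ - ζ ^ 3)
    (111 + 78 * ζ + 17 * ζ ^ 2 + 67 * ζ ^ 3 + 84 * ζ ^ 4 + 40 * ζ ^ 5 + 46 * ζ ^ 6 + 69 * ζ ^ 7 + 48 * ζ ^ 8 + 33 * ζ ^ 9 + 41 * ζ ^ 10 + 28 * ζ ^ 11)
    (-68 - 47 * ζ - 10 * ζ ^ 2 - 41 * ζ ^ 3 - 51 * ζ ^ 4 - 24 * ζ ^ 5 - 28 * ζ ^ 6 - 42 * ζ ^ 7 - 29 * ζ ^ 8 - 20 * ζ ^ 9 - 25 * ζ ^ 10 - 17 * ζ ^ 11)
    (-3909) (-6401 - 80 * ζ - ζ ^ 2) ?_ ?_ ?_
  · push_cast
    linear_combination (-(-20 - 13 * ζ - 28 * ζ ^ 2)) * hs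
  · push_cast
    linear_combination (-(12 + 8 * ζ + 17 * ζ ^ 2)) * hs
  · push_cast
    ring

theorem root_13_157 : ∑ i ∈ Finset.range 13, ((75 : ℤ) : ZMod 157) ^ i = 0 := by decide

theorem principal_13_157 (K : Type) [Field K] [NumberField K] [IsCyclotomicExtension {13} ℚ K] :
    ∃ P ∈ primesOver (span {((157 : ℕ) : ℤ)}) (𝓞 K), Submodule.IsPrincipal P := by
  have : Fact (Nat.Prime 13) := ⟨by norm_num⟩
  have : Fact (Nat.Prime 157) := ⟨by norm_num⟩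
  have hs := zeta_sum_eq_zero 13 K
  simp only [Finset.sum_range_succ, Finset.sum_range_zero, zero_add, pow_zero, pow_one] at hs
  set ζ := (IsCyclotomicExtension.zeta_spec 13 ℚ K).toInteger with hζ
  refine exists_principal_prime_linear 13 157 K 75 root_13_157
    (1 - ζ + ζ ^ 2 + ζ ^ 4)
    (89 + 86 * ζ + 42 * ζ ^ 2 + 77 * ζ ^ 3 + 67 * ζ ^ 4 + 25 * ζ ^ 5 + 37 * ζ ^ 6 + 56 * ζ ^ 7 + 73 * ζ ^ 8 + 113 * ζ ^ 9 + 124 * ζ ^ 10 + 76 * ζ ^ 11)
    (-43 - 41 * ζ - 20 * ζ ^ 2 - 37 * ζ ^ 3 - 32 * ζ ^ 4 - 12 * ζ ^ 5 - 18 * ζ ^ 6 - 27 * ζ ^ 7 - 35 * ζ ^ 8 - 54 * ζ ^ 9 - 59 * ζ ^ 10 - 36 * ζ ^ 11)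
    (201568) (421949 + 5626 * ζ + 75 * ζ ^ 2 + ζ ^ 3) ?_ ?_ ?_
  · push_cast
    linear_combination (-(-68 + 65 * ζ + 48 * ζ ^ 2 + 76 * ζ ^ 3)) * hs
  · push_cast
    linear_combination (-(32 - 31 * ζ - 23 * ζ ^ 2 - 36 * ζ ^ 3)) * hs
  · push_cast
    ring

theorem no_root_13_3 : ∀ x : ZMod 3, ¬ x ^ 3 - x - 1 = 0 := by decide

theorem principal_13_3 (K : Type) [Field K] [NumberField K] [IsCyclotomicExtension {13} ℚ K] :
    ∃ P ∈ primesOver (span {((3 : ℕ) : ℤ)}) (𝓞 K), Submodule.IsPrincipal P := by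
  have : Fact (Nat.Prime 13) := ⟨by norm_num⟩
  have : Fact (Nat.Prime 3) := ⟨by norm_num⟩
  have hs := zeta_sum_eq_zero 13 K
  simp only [Finset.sum_range_succ, Finset.sum_range_zero, zero_add, pow_zero, pow_one] at hs
  set ζ := (IsCyclotomicExtension.zeta_spec 13 ℚ K).toInteger with hζ
  have hmap : (X ^ 3 - X - 1 : ℤ[X]).map (Int.castRingHom (ZMod 3)) = X ^ 3 - X - 1 := by
    simp
  have hev : aeval ζ (X ^ 3 - X - 1 : ℤ[X]) = ζ ^ 3 - ζ - 1 := by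
    simp
  have hdeg : (X ^ 3 - X - 1 : (ZMod 3)[X]).natDegree = 3 := by
    compute_degree!
  have hmonic : (X ^ 3 - X - 1 : (ZMod 3)[X]).Monic := by
    monicity!
  refine exists_principal_prime 13 3 K (X ^ 3 - X - 1) ?_ ?_ ?_ (ζ ^ 3 - ζ - 1) ?_ ?_ ?_
  · rw [hmap]
    apply irreducible_of_degree_le_three_of_not_isRoot
    · rw [hdeg]; decide
    · intro x
      simp only [IsRoot.def, eval_sub, eval_pow, eval_X, eval_one]
      exact no_root_13_3 x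
  · rw [hmap]; exact hmonic
  · rw [hmap, cyclotomic_prime]
    refine ⟨-1 - X ^ 2 - X ^ 3 + X ^ 5 - X ^ 7 + X ^ 8 + X ^ 9, ?_⟩
    have h3 : (3 : (ZMod 3)[X]) = 0 := by
      have : ((3 : ℕ) : (ZMod 3)[X]) = 0 := by
        rw [← C_eq_natCast, ZMod.natCast_self, C_0]
      simpa using this
    simp only [Finset.sum_range_succ, Finset.sum_range_zero, zero_add, pow_zero, pow_one]
    linear_combination (X ^ 5 + X ^ 6 + X ^ 9 + X ^ 10) * h3
  · refine ⟨1 + ζ ^ 2 + ζ ^ 3 + 2 * ζ ^ 5 + ζ ^ 7 + 2 * ζ ^ 8 - ζ ^ 9 + 3 * ζ ^ 10, ?_⟩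
    push_cast
    linear_combination (-(-4 + 3 * ζ)) * hs
  · rw [hev]
  · rw [hev]
    exact Ideal.subset_span (by simp)

theorem pid_thirteen (K : Type) [Field K] [NumberField K] [IsCyclotomicExtension {13} ℚ K] :
    IsPrincipalIdealRing (𝓞 K) := by
  have : Fact (Nat.Prime 13) := ⟨by norm_num⟩
  refine pid_of_bound 13 K 312 (minkowski_thirteen K) ?_
  intro q f hq _ hf hle hmod
  have h2 : 2 ≤ q ^ f := le_trans hq.two_le (Nat.le_self_pow hf.ne' q)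
  obtain ⟨k, hk⟩ : ∃ k, q ^ f = 13 * k + 1 := ⟨q ^ f / 13, by omega⟩
  have hk1 : 1 ≤ k := by omega
  have hk2 : k ≤ 23 := by omega
  interval_cases k
  · exact (prime_pow_two_factors hq hk (r₁ := 2) (r₂ := 7) (by norm_num) (by norm_num) (by norm_num) (by norm_num) (by norm_num)).elim
  · obtain rfl := prime_pow_eq hq hk (r := 3) (by norm_num) (by norm_num)
    exact principal_13_3 K
  · exact (prime_pow_two_factors hq hk (r₁ := 2) (r₂ := 5) (by norm_num) (by norm_num) (by norm_num) (by norm_num) (by norm_num)).elim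
  · obtain rfl := prime_pow_eq hq hk (r := 53) (by norm_num) (by norm_num)
    exact principal_13_53 K
  · exact (prime_pow_two_factors hq hk (r₁ := 2) (r₂ := 3) (by norm_num) (by norm_num) (by norm_num) (by norm_num) (by norm_num)).elim
  · obtain rfl := prime_pow_eq hq hk (r := 79) (by norm_num) (by norm_num)
    exact principal_13_79 K
  · exact (prime_pow_two_factors hq hk (r₁ := 2) (r₂ := 23) (by norm_num) (by norm_num) (by norm_num) (by norm_num) (by norm_num)).elim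
  · exact (prime_pow_two_factors hq hk (r₁ := 3) (r₂ := 5) (by norm_num) (by norm_num) (by norm_num) (by norm_num) (by norm_num)).elim
  · exact (prime_pow_two_factors hq hk (r₁ := 2) (r₂ := 59) (by norm_num) (by norm_num) (by norm_num) (by norm_num) (by norm_num)).elim
  · obtain rfl := prime_pow_eq hq hk (r := 131) (by norm_num) (by norm_num)
    exact principal_13_131 K
  · exact (prime_pow_two_factors hq hk (r₁ := 2) (r₂ := 3) (by norm_num) (by norm_num) (by norm_num) (by norm_num) (by norm_num)).elim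
  · obtain rfl := prime_pow_eq hq hk (r := 157) (by norm_num) (by norm_num)
    exact principal_13_157 K
  · exact (prime_pow_two_factors hq hk (r₁ := 2) (r₂ := 5) (by norm_num) (by norm_num) (by norm_num) (by norm_num) (by norm_num)).elim
  · exact (prime_pow_two_factors hq hk (r₁ := 3) (r₂ := 61) (by norm_num) (by norm_num) (by norm_num) (by norm_num) (by norm_num)).elim
  · exact (prime_pow_two_factors hq hk (r₁ := 2) (r₂ := 7) (by norm_num) (by norm_num) (by norm_num) (by norm_num) (by norm_num)).elim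
  · exact (prime_pow_two_factors hq hk (r₁ := 11) (r₂ := 19) (by norm_num) (by norm_num) (by norm_num) (by norm_num) (by norm_num)).elim
  · exact (prime_pow_two_factors hq hk (r₁ := 2) (r₂ := 3) (by norm_num) (by norm_num) (by norm_num) (by norm_num) (by norm_num)).elim
  · exact (prime_pow_two_factors hq hk (r₁ := 5) (r₂ := 47) (by norm_num) (by norm_num) (by norm_num) (by norm_num) (by norm_num)).elim
  · exact (prime_pow_two_factors hq hk (r₁ := 2) (r₂ := 31) (by norm_num) (by norm_num) (by norm_num) (by norm_num) (by norm_num)).elim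
  · exact (prime_pow_two_factors hq hk (r₁ := 3) (r₂ := 29) (by norm_num) (by norm_num) (by norm_num) (by norm_num) (by norm_num)).elim
  · exact (prime_pow_two_factors hq hk (r₁ := 2) (r₂ := 137) (by norm_num) (by norm_num) (by norm_num) (by norm_num) (by norm_num)).elim
  · exact (prime_pow_two_factors hq hk (r₁ := 7) (r₂ := 41) (by norm_num) (by norm_num) (by norm_num) (by norm_num) (by norm_num)).elim
  · exact (prime_pow_two_factors hq hk (r₁ := 2) (r₂ := 3) (by norm_num) (by norm_num) (by norm_num) (by norm_num) (by norm_num)).elim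

end Fermat.Agent.Lib.Kummer
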