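import Fermat.Agent.Lib.Kummer.Defs
import Fermat.Agent.Lib.Kummer.Descent
import Fermat.Agent.Lib.Kummer.PID
import Fermat.Agent.Lib.Kummer.K5
import Fermat.Agent.Lib.Kummer.K7
import Fermat.Agent.Lib.Kummer.K11
import Fermat.Agent.Lib.Kummer.K13

set_option autoImplicit false

namespace Fermat.Agent.Lib.Kummer

theorem caseII_five : CaseII 5 := by
  have : Fact (Nat.Prime 5) := ⟨by norm_num⟩
  have : IsCyclotomicExtension {5} ℚ (CyclotomicField 5 ℚ) :=
    CyclotomicField.isCyclotomicExtension 5 ℚ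
  have := IsCyclotomicExtension.Rat.five_pid (CyclotomicField 5 ℚ)
  exact caseII_of_pid_of_kummerLemma 5 (by norm_num) (CyclotomicField 5 ℚ) (kummerLemma_five _)

theorem caseII_seven : CaseII 7 := by
  have : Fact (Nat.Prime 7) := ⟨by norm_num⟩
  have : IsCyclotomicExtension {7} ℚ (CyclotomicField 7 ℚ) :=
    CyclotomicField.isCyclotomicExtension 7 ℚ
  have := pid_seven (CyclotomicField 7 ℚ)
  exact caseII_of_pid_of_kummerLemma 7 (by norm_num) (CyclotomicField 7 ℚ) (kummerLemma_seven _)

theorem caseII_eleven : CaseII 11 := by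
  have : Fact (Nat.Prime 11) := ⟨by norm_num⟩
  have : IsCyclotomicExtension {11} ℚ (CyclotomicField 11 ℚ) :=
    CyclotomicField.isCyclotomicExtension 11 ℚ
  have := pid_eleven (CyclotomicField 11 ℚ)
  exact caseII_of_pid_of_kummerLemma 11 (by norm_num) (CyclotomicField 11 ℚ) (kummerLemma_eleven _)

theorem caseII_thirteen : CaseII 13 := by
  have : Fact (Nat.Prime 13) := ⟨by norm_num⟩
  have : IsCyclotomicExtension {13} ℚ (CyclotomicField 13 ℚ) :=
    CyclotomicField.isCyclotomicExtension 13 ℚ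
  have := pid_thirteen (CyclotomicField 13 ℚ)
  exact caseII_of_pid_of_kummerLemma 13 (by norm_num) (CyclotomicField 13 ℚ)
    (kummerLemma_thirteen _)

end Fermat.Agent.Lib.Kummer
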