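import Fermat.Agent.Lib.Kummer.Defs
import Fermat.Agent.Lib.Kummer.Abstract
import Fermat.Agent.Lib.Kummer.DLog

set_option autoImplicit false
set_option linter.unusedSectionVars false
set_option linter.unusedSimpArgs false

open NumberField Polynomial

namespace Fermat.Agent.Lib.Kummer

/-- The unit group of a number field is generated by `rank + 1` elements. -/
theorem exists_unit_generators (K : Type) [Field K] [NumberField K] :
    ∃ x : Option (Fin (Units.rank K)) → (𝓞 K)ˣ,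
      ∀ u, ∃ e : Option (Fin (Units.rank K)) → ℤ, u = ∏ i, x i ^ e i := by
  obtain ⟨t, ht⟩ := IsCyclic.exists_generator (α := Units.torsion K)
  refine ⟨fun i => i.elim (t : (𝓞 K)ˣ) (Units.fundSystem K), fun u => ?_⟩
  obtain ⟨⟨τ, e⟩, h, -⟩ := Units.exist_unique_eq_mul_prod K u
  obtain ⟨k, hk⟩ := Subgroup.mem_zpowers_iff.1 (ht τ)
  refine ⟨fun i => i.elim k e, ?_⟩
  rw [Fintype.prod_option]
  simp only [Option.elim_none, Option.elim_some]
  rw [h]
  congr 1
  simp only
  rw [← hk]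
  simp

variable {p : ℕ} [hp : Fact p.Prime] {K : Type} [Field K] [NumberField K]
  [IsCyclotomicExtension {p} ℚ K] {ζ : K} (hζ : IsPrimitiveRoot ζ p)

theorem rank_add_one (hp2 : p ≠ 2) : Units.rank K + 1 = (p - 1) / 2 := by
  have h2 : 2 < p := lt_of_le_of_ne hp.out.two_le (Ne.symm hp2)
  rw [Units.rank, InfinitePlace.card_eq_nrRealPlaces_add_nrComplexPlaces,
    IsCyclotomicExtension.Rat.nrRealPlaces_eq_zero (n := p) K h2,
    IsCyclotomicExtension.Rat.nrComplexPlaces_eq_totient_div_two (n := p) K,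
    Nat.totient_prime hp.out]
  omega

/-- Kummer's lemma from a certificate of independence of logarithmic derivatives. -/
theorem kummerLemma_of_cert (hp2 : p ≠ 2) (g : Fin ((p - 1) / 2) → (𝓞 K)ˣ)
    (hg : ∀ c : Fin ((p - 1) / 2) → ℤ, ∑ j, c j • (dlog hζ (g j)).toAdd = 0 →
      ∀ j, (p : ℤ) ∣ c j) : KummerLemma p K := by
  rintro u ⟨n, hn⟩
  obtain ⟨x, hx⟩ := exists_unit_generators K
  refine exists_pow_eq_of_dlog_eq_zero (natCast_smul_dQuot hζ) (dlog hζ) x hx g hg ?_ u
    (dlog_eq_one_of_dvd hζ u n hn)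
  rw [Fintype.card_option, Fintype.card_fin, Fintype.card_fin, rank_add_one hp2]

/-- `λ`-adic coordinates: if `λ^N ∣ ∑_{i<N} b_i λ^i` with `N ≤ p - 1` and `b_i ∈ ℤ`, then `p ∣ b_i`. -/
theorem dvd_coeff_of_pow_dvd_sum {N : ℕ} (hN : N ≤ p - 1) (b : ℕ → ℤ)
    (h : (hζ.toInteger - 1) ^ N ∣ ∑ i ∈ Finset.range N, (b i : 𝓞 K) * (hζ.toInteger - 1) ^ i) :
    ∀ i < N, (p : ℤ) ∣ b i := by
  intro i
  induction i using Nat.strong_induction_on with
  | _ i ih =>
    intro hi
    set l := hζ.toInteger - 1 with hl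
    have hlne : l ≠ 0 := hζ.zeta_sub_one_prime'.ne_zero
    rw [← IsCyclotomicExtension.Rat.zeta_sub_one_dvd_intCast_iff' p hζ, ← hl]
    have hpl : l ^ (p - 1) ∣ (p : 𝓞 K) :=
      (IsCyclotomicExtension.Rat.associated_zeta_sub_one_pow_prime p hζ).dvd
    -- every other term is divisible by `l^(i+1)`
    have hother : ∀ j ∈ (Finset.range N).erase i, l ^ (i + 1) ∣ (b j : 𝓞 K) * l ^ j := by
      intro j hj
      rw [Finset.mem_erase, Finset.mem_range] at hj
      rcases lt_or_gt_of_ne hj.1 with hlt | hgt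
      · obtain ⟨c, hc⟩ := ih j hlt hj.2
        apply Dvd.dvd.mul_right
        rw [hc]
        push_cast
        apply Dvd.dvd.mul_right
        exact (pow_dvd_pow l (by omega)).trans hpl
      · exact Dvd.dvd.mul_left (pow_dvd_pow l (by omega)) _
    have hsum : l ^ (i + 1) ∣ ∑ j ∈ (Finset.range N).erase i, (b j : 𝓞 K) * l ^ j :=
      Finset.dvd_sum hother
    have htot : l ^ (i + 1) ∣ ∑ j ∈ Finset.range N, (b j : 𝓞 K) * l ^ j :=
      (pow_dvd_pow l (by omega)).trans h
    rw [← Finset.add_sum_erase _ _ (Finset.mem_range.2 hi)] at htot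
    have h3 : l ^ (i + 1) ∣ (b i : 𝓞 K) * l ^ i := (dvd_add_left hsum).1 htot
    rw [pow_succ, mul_comm] at h3
    exact (mul_dvd_mul_iff_right (pow_ne_zero i hlne)).1 h3

end Fermat.Agent.Lib.Kummer
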