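import Mathlib

set_option autoImplicit false

namespace Fermat.Agent.Lib.Kummer

open NumberField Ideal Module InfinitePlace Nat Real IsCyclotomicExtension.Rat

/-- Criterion: the ring of integers of the `p`-th cyclotomic field is a PID as soon as the
Minkowski bound is `< B + 1` and every prime `q ≠ p` having a power `q ^ f ≤ B` with
`q ^ f ≡ 1 mod p` has a principal prime above it. -/
theorem pid_of_bound (p : ℕ) [hp : Fact p.Prime] (K : Type) [Field K] [NumberField K]
    [hK : IsCyclotomicExtension {p} ℚ K] (B : ℕ)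
    (hB : ⌊(4 / π) ^ nrComplexPlaces K *
      ((finrank ℚ K)! / (finrank ℚ K) ^ (finrank ℚ K) * √|discr K|)⌋₊ ≤ B)
    (h : ∀ q f : ℕ, q.Prime → q ≠ p → 0 < f → q ^ f ≤ B → q ^ f % p = 1 →
      ∃ P ∈ primesOver (span {(q : ℤ)}) (𝓞 K), Submodule.IsPrincipal P) :
    IsPrincipalIdealRing (𝓞 K) := by
  have : IsGalois ℚ K := IsCyclotomicExtension.isGalois {p} ℚ K
  apply RingOfIntegers.isPrincipalIdealRing_of_isPrincipal_of_lt_or_isPrincipal_of_mem_primesOver_of_mem_Icc
  intro q _ hq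
  by_cases hqp : q = p
  · subst hqp
    have hζ := IsCyclotomicExtension.zeta_spec q ℚ K
    refine ⟨span {hζ.toInteger - 1}, ⟨isPrime_span_zeta_sub_one' q hζ, ?_⟩, Or.inr ⟨_, rfl⟩⟩
    have hK' : IsCyclotomicExtension {q ^ (0 + 1)} ℚ K := by simpa using hK
    have hζ' : IsPrimitiveRoot (IsCyclotomicExtension.zeta q ℚ K) (q ^ (0 + 1)) := by
      simpa using hζ
    exact liesOver_span_zeta_sub_one q 0 hζ'
  · haveI : Fact q.Prime := ⟨hq⟩
    obtain ⟨⟨P, hP1, hP2⟩⟩ := (span {(q : ℤ)}).nonempty_primesOver (S := 𝓞 K)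
    have hqp' : ¬ q ∣ p := fun hd => hqp ((Nat.prime_dvd_prime_iff_eq hq hp.out).mp hd)
    have hf : P.inertiaDeg ℤ = orderOf (q : ZMod p) := inertiaDeg_eq_of_not_dvd q K P hqp'
    by_cases hlt : ⌊(4 / π) ^ nrComplexPlaces K *
      ((finrank ℚ K)! / (finrank ℚ K) ^ (finrank ℚ K) * √|discr K|)⌋₊ < q ^ P.inertiaDeg ℤ
    · exact ⟨P, ⟨hP1, hP2⟩, Or.inl hlt⟩
    · have hle : q ^ orderOf (q : ZMod p) ≤ B := by
        rw [← hf]; exact (not_lt.mp hlt).trans hB
      have hunit : IsUnit (q : ZMod p) := by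
        rw [ZMod.isUnit_iff_coprime]
        exact (Nat.coprime_primes hq hp.out).mpr hqp
      have hpos : 0 < orderOf (q : ZMod p) := by
        rw [orderOf_pos_iff]
        exact hunit.isOfFinOrder
      have hmod : q ^ orderOf (q : ZMod p) % p = 1 := by
        have h1 : ((q ^ orderOf (q : ZMod p) : ℕ) : ZMod p) = ((1 : ℕ) : ZMod p) := by
          push_cast
          exact pow_orderOf_eq_one _
        have h2 := (ZMod.natCast_eq_natCast_iff' _ _ _).mp h1
        rw [h2]
        exact Nat.mod_eq_of_lt hp.out.one_lt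
      obtain ⟨P', hP', hprin⟩ := h q _ hq hqp hpos hle hmod
      exact ⟨P', hP', Or.inr hprin⟩

end Fermat.Agent.Lib.Kummer
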