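import Mathlib
import Fermat.Agent.Lib.Kummer.Defs

set_option autoImplicit false

/-!
# Sophie Germain's theorem (with Legendre's auxiliary primes)

First case of FLT for the exponents `5, 7, 11, 13`.
-/

namespace Fermat.Agent.Lib.Kummer

open Finset

section Phi

variable {R S : Type*} [CommRing R] [CommRing S]

/-- the cofactor `(y^p + z^p)/(y+z)` -/
def sgPhi (p : ℕ) (y z : R) : R :=
  ∑ i ∈ range p, y ^ i * (-z) ^ (p - 1 - i)

lemma sgPhi_mul {p : ℕ} (hp : Odd p) (y z : R) :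
    sgPhi p y z * (y + z) = y ^ p + z ^ p := by
  have h := geom_sum₂_mul y (-z) p
  rw [hp.neg_pow] at h
  simpa [sgPhi, sub_neg_eq_add] using h

lemma map_sgPhi (f : R →+* S) (p : ℕ) (y z : R) :
    f (sgPhi p y z) = sgPhi p (f y) (f z) := by
  simp [sgPhi, map_sum]

lemma sgPhi_of_add_eq_zero (p : ℕ) {y z : R} (h : y + z = 0) :
    sgPhi p y z = p * y ^ (p - 1) := by
  have h' : -z = y := by linear_combination -h
  rw [sgPhi, h', geom_sum₂_self]

lemma sgPhi_zero_left {p : ℕ} (hp : Odd p) (z : R) :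
    sgPhi p 0 z = z ^ (p - 1) := by
  obtain ⟨k, rfl⟩ := hp
  rw [sgPhi, Finset.sum_eq_single 0]
  · simp
  · intro i _ hi
    simp [hi]
  · intro h
    simp at h

lemma dvd_sgPhi_sub (p : ℕ) (y z : R) :
    y + z ∣ sgPhi p y z - p * y ^ (p - 1) := by
  rw [← Ideal.mem_span_singleton, ← Ideal.Quotient.eq_zero_iff_mem, map_sub, map_sgPhi,
    sgPhi_of_add_eq_zero]
  · simp
  · rw [← map_add, Ideal.Quotient.eq_zero_iff_mem]
    exact Ideal.mem_span_singleton_self _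

end Phi

lemma sg_factor {p : ℕ} (hp : p.Prime) (hodd : Odd p) {x y z : ℤ} (hyz : IsCoprime y z)
    (hpx : ¬ (p : ℤ) ∣ x) (h : x ^ p + y ^ p + z ^ p = 0) :
    ∃ a α : ℤ, y + z = a ^ p ∧ sgPhi p y z = α ^ p := by
  have hmul : (y + z) * sgPhi p y z = (-x) ^ p := by
    rw [mul_comm, sgPhi_mul hodd, hodd.neg_pow]
    linear_combination h
  have hcop : IsCoprime (y + z) (sgPhi p y z) := by
    apply isCoprime_of_prime_dvd
    · rintro ⟨h0, -⟩
      rw [h0, zero_mul] at hmul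
      have hx0 : x = 0 := by
        have := pow_eq_zero_iff (M₀ := ℤ) (a := -x) hp.ne_zero |>.1 hmul.symm
        simpa using this
      exact hpx (hx0 ▸ dvd_zero _)
    · intro r hr hr1 hr2
      have h3 : r ∣ (p : ℤ) * y ^ (p - 1) := by
        have h4 := (hr1.trans (dvd_sgPhi_sub p y z))
        have := dvd_sub hr2 h4
        simpa using this
      rcases hr.dvd_or_dvd h3 with h5 | h5
      · -- r ∣ p
        have hpp : Prime (p : ℤ) := Nat.prime_iff_prime_int.1 hp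
        have hass : Associated r (p : ℤ) := hr.associated_of_dvd hpp h5
        have h6 : (p : ℤ) ∣ (-x) ^ p := by
          rw [← hmul]
          exact (hass.symm.dvd.trans hr1).mul_right _
        have h7 := hpp.dvd_of_dvd_pow h6
        exact hpx ((dvd_neg).1 h7)
      · have h6 : r ∣ y := hr.dvd_of_dvd_pow h5
        have h7 : r ∣ z := by
          have := dvd_sub hr1 h6
          simpa using this
        exact hr.not_isUnit (hyz.isUnit_of_dvd' h6 h7)
  obtain ⟨⟨a, ha⟩, ⟨α, hα⟩⟩ := Int.eq_pow_of_mul_eq_pow_odd hcop hodd hmul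
  exact ⟨a, α, ha, hα⟩

lemma sg_not_both_zero {q : ℕ} [Fact q.Prime] {x y : ℤ} (hxy : IsCoprime x y)
    (hx : (x : ZMod q) = 0) (hy : (y : ZMod q) = 0) : False := by
  have h := hxy.map (Int.castRingHom (ZMod q))
  simp only [eq_intCast, hx, hy] at h
  exact not_isCoprime_zero_zero h

theorem sg_core {p q : ℕ} (hp : p.Prime) (hodd : Odd p) [Fact q.Prime]
    (h1 : ∀ x y z : ZMod q, x ^ p + y ^ p + z ^ p = 0 → x * y * z = 0)
    (h2 : ∀ x : ZMod q, x ^ p ≠ (p : ZMod q))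
    {x y z : ℤ} (hxy : IsCoprime x y) (hyz : IsCoprime y z) (hzx : IsCoprime z x)
    (hpx : ¬ (p : ℤ) ∣ x) (hpy : ¬ (p : ℤ) ∣ y) (hpz : ¬ (p : ℤ) ∣ z)
    (h : x ^ p + y ^ p + z ^ p = 0) (hqx : (x : ZMod q) = 0) : False := by
  obtain ⟨a, α, ha, hα⟩ := sg_factor hp hodd hyz hpx h
  obtain ⟨b, β, hb, -⟩ := sg_factor hp hodd hzx hpy (x := y) (y := z) (z := x)
    (by linear_combination h)
  obtain ⟨c, γ, hc, hγ⟩ := sg_factor hp hodd hxy hpz (x := z) (y := x) (z := y)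
    (by linear_combination h)
  have ha' : (y : ZMod q) + z = (a : ZMod q) ^ p := by exact_mod_cast congrArg (Int.cast : ℤ → ZMod q) ha
  have hb' : (z : ZMod q) + x = (b : ZMod q) ^ p := by exact_mod_cast congrArg (Int.cast : ℤ → ZMod q) hb
  have hc' : (x : ZMod q) + y = (c : ZMod q) ^ p := by exact_mod_cast congrArg (Int.cast : ℤ → ZMod q) hc
  have hα' : sgPhi p (y : ZMod q) (z : ZMod q) = (α : ZMod q) ^ p := by
    have := congrArg (Int.castRingHom (ZMod q)) hα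
    rw [map_sgPhi] at this
    simpa using this
  have hγ' : sgPhi p (x : ZMod q) (y : ZMod q) = (γ : ZMod q) ^ p := by
    have := congrArg (Int.castRingHom (ZMod q)) hγ
    rw [map_sgPhi] at this
    simpa using this
  have hsum : (b : ZMod q) ^ p + (c : ZMod q) ^ p + (-(a : ZMod q)) ^ p = 0 := by
    rw [hodd.neg_pow, ← ha', ← hb', ← hc', hqx]
    ring
  have hprod := h1 _ _ _ hsum
  have hp0 : p ≠ 0 := hp.ne_zero
  rcases mul_eq_zero.1 hprod with hbc | ha0
  · rcases mul_eq_zero.1 hbc with hb0 | hc0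
    · rw [hb0, zero_pow hp0, hqx, add_zero] at hb'
      exact sg_not_both_zero hzx hb' hqx
    · rw [hc0, zero_pow hp0, hqx, zero_add] at hc'
      exact sg_not_both_zero hxy hqx hc'
  · have ha0' : (a : ZMod q) = 0 := by simpa using ha0
    rw [ha0', zero_pow hp0] at ha'
    rw [sgPhi_of_add_eq_zero p ha'] at hα'
    rw [hqx, sgPhi_zero_left hodd] at hγ'
    have hy0 : (y : ZMod q) ≠ 0 := fun hy => sg_not_both_zero hxy hqx hy
    have hγ0 : (γ : ZMod q) ≠ 0 := by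
      intro h0
      rw [h0, zero_pow hp0] at hγ'
      exact hy0 (pow_eq_zero_iff (by
        have := hp.two_le
        omega) |>.1 hγ')
    apply h2 ((α : ZMod q) / γ)
    rw [div_pow, ← hα', ← hγ']
    field_simp

/-- **Sophie Germain's theorem** (general form with an auxiliary prime `q`). -/
theorem caseI_of_auxPrime {p q : ℕ} (hp : p.Prime) (hodd : Odd p) [Fact q.Prime]
    (h1 : ∀ x y z : ZMod q, x ^ p + y ^ p + z ^ p = 0 → x * y * z = 0)
    (h2 : ∀ x : ZMod q, x ^ p ≠ (p : ZMod q)) : CaseI p := by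
  intro a b c hab hpabc h
  have hp0 : 0 < p := hp.pos
  have hpa : ¬ (p : ℤ) ∣ a := fun hd => hpabc ((hd.mul_right b).mul_right c)
  have hpb : ¬ (p : ℤ) ∣ b := fun hd => hpabc ((hd.mul_left a).mul_right c)
  have hpc : ¬ (p : ℤ) ∣ -c := fun hd => hpabc (((dvd_neg).1 hd).mul_left (a * b))
  have hsum : a ^ p + b ^ p + (-c) ^ p = 0 := by
    rw [hodd.neg_pow]
    linear_combination h
  have hbp : b ^ p = b * b ^ (p - 1) := by
    rw [← pow_succ']
    congr 1
    omega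
  have hap : a ^ p = a * a ^ (p - 1) := by
    rw [← pow_succ']
    congr 1
    omega
  have hbc : IsCoprime b (-c) := by
    rw [IsCoprime.neg_right_iff, ← IsCoprime.pow_right_iff hp0, ← h, hbp]
    exact (hab.symm.pow_right).add_mul_left_right _
  have hca : IsCoprime (-c) a := by
    rw [IsCoprime.neg_left_iff, ← IsCoprime.pow_left_iff hp0, ← h, add_comm, hap]
    exact (hab.symm.pow_left).add_mul_left_left _
  have hprod := h1 (a : ZMod q) (b : ZMod q) ((-c : ℤ) : ZMod q) (by exact_mod_cast congrArg (Int.cast : ℤ → ZMod q) hsum)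
  rcases mul_eq_zero.1 hprod with hab0 | hc0
  · rcases mul_eq_zero.1 hab0 with ha0 | hb0
    · exact sg_core hp hodd h1 h2 hab hbc hca hpa hpb hpc hsum ha0
    · exact sg_core hp hodd h1 h2 hbc hca hab hpb hpc hpa (by linear_combination hsum) hb0
  · exact sg_core hp hodd h1 h2 hca hab hbc hpc hpa hpb (by linear_combination hsum) hc0

section Specific

lemma sg_h1_of_finset {p q : ℕ} (S : Finset (ZMod q))
    (hS : ∀ x : ZMod q, x = 0 ∨ x ^ p ∈ S)
    (hsum : ∀ u ∈ S, ∀ v ∈ S, ∀ w ∈ S, u + v + w ≠ 0) :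
    ∀ x y z : ZMod q, x ^ p + y ^ p + z ^ p = 0 → x * y * z = 0 := by
  intro x y z h
  rcases hS x with rfl | hx
  · simp
  rcases hS y with rfl | hy
  · simp
  rcases hS z with rfl | hz
  · simp
  exact absurd h (hsum _ hx _ hy _ hz)

lemma sg_h2_of_finset {p q : ℕ} (hp : p ≠ 0) (S : Finset (ZMod q))
    (hS : ∀ x : ZMod q, x = 0 ∨ x ^ p ∈ S)
    (hp0 : (p : ZMod q) ≠ 0) (hpS : (p : ZMod q) ∉ S) :
    ∀ x : ZMod q, x ^ p ≠ (p : ZMod q) := by
  intro x h
  rcases hS x with rfl | hx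
  · rw [zero_pow hp] at h
    exact hp0 h.symm
  · exact hpS (h ▸ hx)

lemma sg_aux_5_a : ∀ x : ZMod 11, x = 0 ∨ x ^ 5 ∈ ({1, -1} : Finset (ZMod 11)) := by decide

lemma sg_aux_5_b : ∀ u ∈ ({1, -1} : Finset (ZMod 11)), ∀ v ∈ ({1, -1} : Finset (ZMod 11)),
    ∀ w ∈ ({1, -1} : Finset (ZMod 11)), u + v + w ≠ 0 := by decide

lemma sg_aux_5_c : ((5 : ℕ) : ZMod 11) ≠ 0 := by decide

lemma sg_aux_5_d : ((5 : ℕ) : ZMod 11) ∉ ({1, -1} : Finset (ZMod 11)) := by decide

theorem caseI_five : CaseI 5 := by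
  have : Fact (Nat.Prime 11) := ⟨by norm_num⟩
  exact caseI_of_auxPrime (q := 11) (by norm_num) (by decide)
    (sg_h1_of_finset _ sg_aux_5_a sg_aux_5_b)
    (sg_h2_of_finset (by norm_num) _ sg_aux_5_a sg_aux_5_c sg_aux_5_d)

lemma sg_aux_7_a : ∀ x : ZMod 29, x = 0 ∨ x ^ 7 ∈ ({1, -1, 12, 17} : Finset (ZMod 29)) := by decide

lemma sg_aux_7_b : ∀ u ∈ ({1, -1, 12, 17} : Finset (ZMod 29)), ∀ v ∈ ({1, -1, 12, 17} : Finset (ZMod 29)),
    ∀ w ∈ ({1, -1, 12, 17} : Finset (ZMod 29)), u + v + w ≠ 0 := by decide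

lemma sg_aux_7_c : ((7 : ℕ) : ZMod 29) ≠ 0 := by decide

lemma sg_aux_7_d : ((7 : ℕ) : ZMod 29) ∉ ({1, -1, 12, 17} : Finset (ZMod 29)) := by decide

theorem caseI_seven : CaseI 7 := by
  have : Fact (Nat.Prime 29) := ⟨by norm_num⟩
  exact caseI_of_auxPrime (q := 29) (by norm_num) (by decide)
    (sg_h1_of_finset _ sg_aux_7_a sg_aux_7_b)
    (sg_h2_of_finset (by norm_num) _ sg_aux_7_a sg_aux_7_c sg_aux_7_d)

lemma sg_aux_11_a : ∀ x : ZMod 23, x = 0 ∨ x ^ 11 ∈ ({1, -1} : Finset (ZMod 23)) := by decide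

lemma sg_aux_11_b : ∀ u ∈ ({1, -1} : Finset (ZMod 23)), ∀ v ∈ ({1, -1} : Finset (ZMod 23)),
    ∀ w ∈ ({1, -1} : Finset (ZMod 23)), u + v + w ≠ 0 := by decide

lemma sg_aux_11_c : ((11 : ℕ) : ZMod 23) ≠ 0 := by decide

lemma sg_aux_11_d : ((11 : ℕ) : ZMod 23) ∉ ({1, -1} : Finset (ZMod 23)) := by decide

theorem caseI_eleven : CaseI 11 := by
  have : Fact (Nat.Prime 23) := ⟨by norm_num⟩
  exact caseI_of_auxPrime (q := 23) (by norm_num) (by decide)
    (sg_h1_of_finset _ sg_aux_11_a sg_aux_11_b)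
    (sg_h2_of_finset (by norm_num) _ sg_aux_11_a sg_aux_11_c sg_aux_11_d)

set_option maxRecDepth 100000 in
lemma sg_aux_13_a : ∀ x : ZMod 53, x = 0 ∨ x ^ 13 ∈ ({1, -1, 23, 30} : Finset (ZMod 53)) := by decide

set_option maxRecDepth 100000 in
lemma sg_aux_13_b : ∀ u ∈ ({1, -1, 23, 30} : Finset (ZMod 53)), ∀ v ∈ ({1, -1, 23, 30} : Finset (ZMod 53)),
    ∀ w ∈ ({1, -1, 23, 30} : Finset (ZMod 53)), u + v + w ≠ 0 := by decide

lemma sg_aux_13_c : ((13 : ℕ) : ZMod 53) ≠ 0 := by decide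

lemma sg_aux_13_d : ((13 : ℕ) : ZMod 53) ∉ ({1, -1, 23, 30} : Finset (ZMod 53)) := by decide

theorem caseI_thirteen : CaseI 13 := by
  have : Fact (Nat.Prime 53) := ⟨by norm_num⟩
  exact caseI_of_auxPrime (q := 53) (by norm_num) (by decide)
    (sg_h1_of_finset _ sg_aux_13_a sg_aux_13_b)
    (sg_h2_of_finset (by norm_num) _ sg_aux_13_a sg_aux_13_c sg_aux_13_d)

end Specific

end Fermat.Agent.Lib.Kummer
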